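import Fermat.Agent.LT.Points.Special
import Fermat.Agent.LT.Theta.Bridge.Ring
import Mathlib.RingTheory.TensorProduct.Finite

/-!
# The representation at a point of the Hecke ring

A point `θ` of the Hecke ring with residual system `r`, onto and ramified at the odd primes
dividing `d`, gives a representation with the trace of `θ`, cyclotomic determinant, unramified
outside `2 d ∏ T`, with a line at the odd primes dividing `d`, and a line with trivial quotient
character at the primes in `T`. It is used in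
`LT/Points/Curve` and `LT/Points/Final`.
-/

set_option autoImplicit false

noncomputable section

namespace Fermat.Agent.LT.Points

open Fermat.Agent.Arith (QBar GQ)
open GaloisReps (FullHecke)
open HeckeDuality (heckeOp)
open LT.Deform (M2 LineAt)
open CFT.Flat (decG inG)
open IsLocalRing

/-- The system of `θ` reduces to that of `r`. -/
def ResidualAt (p : Quat.Params) (θ : p.CuspHecke →+* K2) (r : GQ →* (M2 (ZMod 2))ˣ) : Prop :=
  ∃ Z : Set ℕ, ClassBound.Negligible Z ∧ ∀ ℓ : ℕ, ℓ.Prime → ¬ ℓ ∣ p.level → ℓ ∉ Z →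
      ∀ B : ValuationSubring QBar, B.LiesOverPrime ℓ →
    ∀ F : GQ, B.IsFrobeniusAt F ℓ →
      ‖θ (p.tCusp ℓ) - ((r F : M2 (ZMod 2)).trace.val : K2)‖₊ < 1

/-- What a representation at a point satisfies. -/
structure IsPointRep (p : Quat.Params) (θ : p.CuspHecke →+* K2) (r : GQ →* (M2 (ZMod 2))ˣ)
    (ρ : GQ →* M2 A2) : Prop where
  continuous : ∀ n : ℕ, ∃ L : IntermediateField ℚ QBar, FiniteDimensional ℚ L ∧
    ∀ g : GQ, (∀ x ∈ L, g x = x) → ∀ i j, (2 : A2) ^ n ∣ ρ g i j - (1 : M2 A2) i j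
  unram : ∀ ℓ : ℕ, ℓ.Prime → ¬ ℓ ∣ p.level → ℓ ≠ 2 → ∀ B : ValuationSubring QBar,
    B.LiesOverPrime ℓ → ∀ σ ∈ B.inertiaSubgroupIn ℚ, ρ σ = 1
  frobenius : ∀ ℓ : ℕ, ℓ.Prime → ¬ ℓ ∣ p.level → ℓ ≠ 2 → ∀ B : ValuationSubring QBar,
    B.LiesOverPrime ℓ → ∀ σ : GQ, B.IsFrobeniusAt σ ℓ →
      ((ρ σ).trace : K2) = θ (p.tCusp ℓ) ∧ (ρ σ).det = (ℓ : A2)
  det_congr : ∀ (σ : GQ) (m n : ℕ), (∀ ζ : QBar, ζ ^ (2 ^ n) = 1 → σ ζ = ζ ^ m) →
    (2 : A2) ^ n ∣ (ρ σ).det - (m : A2)
  residual : ∀ g : GQ, ‖((ρ g).trace : K2) - ((r g : M2 (ZMod 2)).trace.val : K2)‖₊ < 1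
  residualTrace : ResidualTrace ρ r
  line_T : ∀ q ∈ p.T, LineAt ρ (Selmer.dec q) fun _ => 1
  line_d : ∀ (v : ℕ) [Fact v.Prime], v ∣ p.d → v ≠ 2 →
    ∃ ε : GQ → A2, LineAt ρ (Selmer.dec v) ε ∧ ∀ t ∈ inG v, ε t = 1

/-- A normalised eigenform with the values of the point `θ` away from the level and coefficient
`1` at the primes of `T`, with a realisation of its character over `2`-adic coefficients. -/
structure PointModel (p : Quat.Params) (θ : p.CuspHecke →+* K2) where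
  g : CuspForm (CongruenceSubgroup.Gamma0 p.level) 2
  hg : g.IsNormalizedEigenform
  e : (ConductorLevel.eigenChar hg ∅).range →+* K2
  C : CharModel p.level (ConductorLevel.eigenChar hg ∅) e
  hT : ∀ (ℓ : ℕ) (hℓ : ℓ.Prime), ¬ ℓ ∣ p.level →
    e ((ConductorLevel.eigenChar hg ∅).rangeRestrict (heckeOp p.level 2 ℓ hℓ)) = θ (p.tCusp ℓ)
  hU : ∀ q ∈ p.T, ModularFormClass.qCoeff g q = 1

theorem eigenChar_heckeOp {L : ℕ} [NeZero L] {g : CuspForm (CongruenceSubgroup.Gamma0 L) 2}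
    (hg : g.IsNormalizedEigenform) {ℓ : ℕ} (hℓ : ℓ.Prime) :
    ConductorLevel.eigenChar hg ∅ (heckeOp L 2 ℓ hℓ) = ModularFormClass.qCoeff g ℓ := by
  show ModularFormClass.qCoeff ((heckeOp L 2 ℓ hℓ).1 g) 1 = _
  rw [HeckeDuality.heckeOp_apply_of_isNormalizedEigenform hg hℓ,
    HeckeDuality.coeff_smul, hg.qCoeff_one, mul_one]

/-- **Every point has a model.** -/
theorem exists_pointModel (p : Quat.Params) (θ : p.CuspHecke →+* K2) :
    Nonempty (PointModel p θ) := by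
  classical
  have : Module.Finite ℤ θ.range := Module.Finite.of_surjective
    θ.rangeRestrict.toAddMonoidHom.toIntLinearMap θ.rangeRestrict_surjective
  obtain ⟨emb, -⟩ := GaloisReps.exists_extend_of_int (Int.castRingHom θ.range)
    (Int.cast_injective) (Int.castRingHom ℂ)
  have hemb : Function.Injective emb := by
    rw [RingHom.injective_iff_ker_eq_bot]
    refine Ideal.eq_bot_of_comap_eq_bot (R := ℤ) ?_
    rw [RingHom.comap_ker, RingHom.ext_int (emb.comp (algebraMap ℤ _)) (Int.castRingHom ℂ),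
      ← RingHom.injective_iff_ker_eq_bot]
    exact Int.cast_injective
  obtain ⟨g, hg, hgT, hgU⟩ := p.exists_eigenform_of_point (emb.comp θ.rangeRestrict)
  have : Module.Finite ℤ (FullHecke p.level) :=
    IntegralStructure.heckeAlgebra_finite p.level 2 ∅
  set χ := ConductorLevel.eigenChar hg ∅ with hχdef
  have hmem : ∀ r : θ.range, emb r ∈ χ.range := by
    rintro ⟨r, x, rfl⟩
    have hx : x ∈ Algebra.adjoin ℤ (p.tCusp '' p.goodSet) := by rw [p.gen_cuspHecke]; trivial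
    change (emb.comp θ.rangeRestrict) x ∈ χ.range
    induction hx using Algebra.adjoin_induction with
    | mem x hx =>
      obtain ⟨ℓ, hℓ, rfl⟩ := hx
      exact ⟨heckeOp p.level 2 ℓ hℓ.1, by rw [eigenChar_heckeOp hg, hgT ℓ hℓ]⟩
    | algebraMap n => rw [eq_intCast, map_intCast]; exact intCast_mem _ n
    | add x y _ _ hx hy => rw [map_add]; exact add_mem hx hy
    | mul x y _ _ hx hy => rw [map_mul]; exact mul_mem hx hy
  let i : θ.range →+* χ.range := emb.codRestrict χ.range hmem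
  have hi : Function.Injective i := fun a b h => hemb (congrArg Subtype.val h)
  have : Module.Finite ℤ χ.range := Module.Finite.of_surjective
    χ.rangeRestrict.toAddMonoidHom.toIntLinearMap χ.rangeRestrict_surjective
  obtain ⟨e, he⟩ := GaloisReps.exists_extend_of_int i hi θ.range.subtype
  obtain ⟨C⟩ := exists_charModel p.level χ e
  refine ⟨{ g := g, hg := hg, e := e, C := C, hT := fun ℓ hℓ hl => ?_, hU := hgU }⟩
  have e1 : χ.rangeRestrict (heckeOp p.level 2 ℓ hℓ) = i (θ.rangeRestrict (p.tCusp ℓ)) :=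
    Subtype.ext <| by
      show χ _ = emb (θ.rangeRestrict (p.tCusp ℓ))
      rw [eigenChar_heckeOp hg, hgT ℓ ⟨hℓ, hl⟩]
      rfl
  rw [e1, he]
  rfl

/-- A character of lower level with the same system gives a representation with the same
traces. -/
theorem exists_old_rep {L M : ℕ} [NeZero L] [NeZero M] (hML : M ∣ L) {χ : FullHecke L →+* ℂ}
    {e : χ.range →+* K2} (C : CharModel L χ e) {θ : FullHecke M →+* ℂ}
    (hθ : ∀ (ℓ : ℕ) (hℓ : ℓ.Prime), ¬ ℓ ∣ L → θ (heckeOp M 2 ℓ hℓ) = χ (heckeOp L 2 ℓ hℓ)) :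
    ∃ (e' : θ.range →+* K2) (C' : CharModel M θ e'),
      (∀ g, (C.rep g).trace = (C'.rep g).trace) ∧
        ∀ (n : ℕ) (x : θ.range), (x : ℂ) = n → e' x = n := by
  classical
  have : Module.Finite ℤ (FullHecke L) := IntegralStructure.heckeAlgebra_finite L 2 ∅
  have : Module.Finite ℤ (FullHecke M) := IntegralStructure.heckeAlgebra_finite M 2 ∅
  let Φ := Algebra.TensorProduct.productMap χ.toIntAlgHom θ.toIntAlgHom
  let Λ : Subring ℂ := Φ.toRingHom.range
  have : Module.Finite ℤ (TensorProduct ℤ (FullHecke L) (FullHecke M)) :=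
    Module.Finite.tensorProduct ℤ (FullHecke L) (FullHecke M)
  have : Module.Finite ℤ Λ := Module.Finite.of_surjective
    Φ.toRingHom.rangeRestrict.toAddMonoidHom.toIntLinearMap Φ.toRingHom.rangeRestrict_surjective
  have h1 : χ.range ≤ Λ := by
    rintro _ ⟨x, rfl⟩
    exact ⟨x ⊗ₜ 1, by simp [Φ]⟩
  have h2 : θ.range ≤ Λ := by
    rintro _ ⟨x, rfl⟩
    exact ⟨1 ⊗ₜ x, by simp [Φ]⟩
  obtain ⟨E, hE⟩ := GaloisReps.exists_extend_of_int (Subring.inclusion h1)
    (fun a b h => Subtype.ext (congrArg (fun x : Λ => (x : ℂ)) h)) e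
  obtain ⟨C'⟩ := exists_charModel M θ (E.comp (Subring.inclusion h2))
  refine ⟨_, C', trace_eq_of_frobenius_A2 C.continuous2 C'.continuous2
    (ClassBound.negligible_finite (L * 2).primeFactors.finite_toSet)
    fun ℓ hℓ hU B hB σ hσ => ?_, fun n x hx => ?_⟩
  · have hn : ¬ ℓ ∣ L * 2 := fun hd =>
      hU (Finset.mem_coe.mpr <| Nat.mem_primeFactors.mpr ⟨hℓ, hd,
        mul_ne_zero (NeZero.ne L) two_ne_zero⟩)
    have hℓL : ¬ ℓ ∣ L := fun hd => hn (dvd_mul_of_dvd_left hd 2)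
    have hℓ2 : ℓ ≠ 2 := fun he => hn (he ▸ dvd_mul_left 2 L)
    obtain ⟨t1, -⟩ := C.frobenius hℓ hℓL hℓ2 hB hσ
    obtain ⟨t2, -⟩ := C'.frobenius hℓ (fun hd => hℓL (hd.trans hML)) hℓ2 hB hσ
    refine Subtype.ext ?_
    rw [t1, t2, ← hE, RingHom.comp_apply]
    exact congrArg E (Subtype.ext (hθ ℓ hℓ hℓL).symm)
  · rw [RingHom.comp_apply, show Subring.inclusion h2 x = (n : Λ) from Subtype.ext (by
      rw [SubringClass.coe_natCast]; exact hx), map_natCast]

variable {p : Quat.Params} {θ : p.CuspHecke →+* K2} (P : PointModel p θ)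
  {r : GQ →* (M2 (ZMod 2))ˣ}

/-- The representation of a model. -/
abbrev PointModel.rep : GQ →* M2 A2 := P.C.rep

theorem PointModel.residualTrace (hc : Selmer.LocConst r) (hres : ResidualAt p θ r) :
    ResidualTrace P.rep r := by
  obtain ⟨Z, hZ, hcong⟩ := hres
  refine residualTrace_of_frobenius P.C.continuous2 hc
    (hZ.union (ClassBound.negligible_finite (p.level * 2).primeFactors.finite_toSet))
    fun ℓ hℓ hℓU B hB σ hσ => ?_
  rw [Set.mem_union, not_or] at hℓU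
  have hn : ¬ ℓ ∣ p.level * 2 := fun hd => hℓU.2 (Finset.mem_coe.mpr <|
    Nat.mem_primeFactors.mpr ⟨hℓ, hd, mul_ne_zero (NeZero.ne p.level) two_ne_zero⟩)
  have hℓL : ¬ ℓ ∣ p.level := fun hd => hn (dvd_mul_of_dvd_left hd 2)
  have hℓ2 : ℓ ≠ 2 := fun he => hn (he ▸ dvd_mul_left 2 p.level)
  obtain ⟨t1, -⟩ := P.C.frobenius hℓ hℓL hℓ2 hB hσ
  rw [P.hT ℓ hℓ hℓL] at t1
  rw [show res2 (r σ : M2 (ZMod 2)).trace =
      residue A2 ((r σ : M2 (ZMod 2)).trace.val : A2) by
    rw [map_natCast]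
    conv_lhs => rw [← ZMod.natCast_zmod_val (r σ : M2 (ZMod 2)).trace, map_natCast],
    ← sub_eq_zero, ← map_sub, residue_eq_zero_iff_nnnorm]
  show ‖((P.rep σ).trace : K2) - (((r σ : M2 (ZMod 2)).trace.val : A2) : K2)‖₊ < 1
  rw [t1, SubringClass.coe_natCast]
  exact hcong ℓ hℓ hℓL hℓU.1 B hB σ hσ

/-- At an odd prime of the level the point is new, or the representation is unramified with
Frobenius trace given by `U_q`. -/
theorem PointModel.new_or_unramified (hs : Function.Surjective r) (hres : ResidualTrace P.rep r)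
    {q : ℕ} [hq : Fact q.Prime] (hqL : q ∣ p.level) (hq2 : q ≠ 2) {F : GQ}
    (hF : (padicPlace q).IsFrobeniusAt F q) :
    (Signed (P.rep F) q (P.C.j (P.C.θ (heckeOp p.level 2 q hq.out))) ∧
        ∀ τ ∈ inG q, Tame (P.rep F) (P.rep τ)) ∨
      (∀ τ ∈ inG q, P.rep τ = 1) ∧
        (ConductorLevel.eigenChar P.hg ∅ (heckeOp p.level 2 q hq.out) = 1 →
          (P.rep F).trace = (q : A2) + 1) := by
  obtain ⟨M, hM⟩ := hqL
  have hL : p.level = M * q := hM.trans (mul_comm q M)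
  have : NeZero M := ⟨fun h0 => NeZero.ne p.level (by rw [hL, h0, zero_mul])⟩
  have hqM : ¬ q ∣ M := fun hd => hq.out.not_isUnit
    (p.squarefree_level q (hM ▸ mul_dvd_mul_left q hd))
  have h : LevelRaising.RaiseData q M := ⟨hq.out, hqM⟩
  rcases killing_or_old h hL (ConductorLevel.eigenChar P.hg ∅) with
    ⟨t, ht, hχ⟩ | ⟨θM, hθM, hU⟩
  · exact Or.inl (P.C.signed_of_killing h hL hq2 ht hχ hF)
  obtain ⟨e', C', htr, hnat⟩ := exists_old_rep (hL ▸ dvd_mul_right M q) P.C hθM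
  refine Or.inr ⟨fun τ hτ => eq_one_of_trace_eq hres hs htr
    (C'.rep_unramified hq.out hqM hq2 (CFT.Local.padicPlace_liesOverPrime q) hτ), fun h1 => ?_⟩
  obtain ⟨t2, -⟩ := C'.frobenius hq.out hqM hq2 (CFT.Local.padicPlace_liesOverPrime q) hF
  refine (htr F).trans (Subtype.ext (t2.trans ?_))
  rw [h1, one_pow, mul_one] at hU
  rw [hnat (q + 1) _ (by
    show θM _ = _
    push_cast
    linear_combination -hU)]
  push_cast
  rfl

theorem PointModel.line_T (hs : Function.Surjective r) (hres : ResidualTrace P.rep r) {q : ℕ}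
    (hqT : q ∈ p.T) : LineAt P.rep (Selmer.dec q) fun _ => 1 := by
  obtain ⟨hqp, hq2, -, -⟩ := p.T_prime q hqT
  have : Fact q.Prime := ⟨hqp⟩
  have hqL : q ∣ p.level := dvd_mul_of_dvd_right (Finset.dvd_prod_of_mem _ hqT) _
  obtain ⟨F, hF⟩ := Arith.exists_isFrobeniusAt (CFT.Local.padicPlace_liesOverPrime q) hqp
  have hχ : ConductorLevel.eigenChar P.hg ∅ (heckeOp p.level 2 q hqp) = 1 := by
    rw [eigenChar_heckeOp P.hg hqp, P.hU q hqT]
  obtain ⟨hX, hI⟩ : Signed (P.rep F) q 1 ∧ ∀ τ ∈ inG q, Tame (P.rep F) (P.rep τ) := by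
    rcases P.new_or_unramified hs hres hqL hq2 hF with ⟨hX, hI⟩ | ⟨hI, htr⟩
    · have hθ : P.C.θ (heckeOp p.level 2 q hqp) = 1 := by
        rw [← sub_eq_zero, ← map_one P.C.θ, ← map_sub, P.C.θ_eq_zero_iff, map_sub, hχ, map_one,
          sub_self]
      rw [hθ, map_one] at hX
      exact ⟨hX, hI⟩
    · have hd := det_rep_frobenius P.C hq2 (CFT.Local.padicPlace_liesOverPrime q) hF
      refine ⟨signed_mk hd ?_ (one_mul 1), fun τ hτ => ⟨?_, ?_⟩⟩
      · rw [mul_one, cayley2 (P.rep F), htr hχ, hd]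
        have e : ((q : A2) + 1) • P.rep F - (q : A2) • 1 - 1 = ((q : A2) + 1) • (P.rep F - 1) := by
          module
        rw [e, Algebra.mul_smul_comm, sub_mul, mul_sub, mul_one, cayley2 (P.rep F), htr hχ, hd,
          Algebra.smul_mul_assoc, one_mul]
        have e2 : ((q : A2) + 1) • P.rep F - (q : A2) • (1 : M2 A2) - P.rep F -
            (q : A2) • (P.rep F - 1) = 0 := by module
        rw [e2, smul_zero]
      · rw [hI τ hτ, sub_self, zero_mul]
      · rw [hI τ hτ, Matrix.det_one]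
  obtain ⟨ε, hε, -, h1⟩ := exists_lineAt P.C.continuous2 hF hX hI
  rw [h1 rfl] at hε
  exact hε

theorem PointModel.line_d (hs : Function.Surjective r) (hres : ResidualTrace P.rep r) {v : ℕ}
    [hv : Fact v.Prime] (hvd : v ∣ p.d) (hv2 : v ≠ 2) (hram : ∃ t ∈ inG v, r t ≠ 1) :
    ∃ ε : GQ → A2, LineAt P.rep (Selmer.dec v) ε ∧ ∀ t ∈ inG v, ε t = 1 := by
  obtain ⟨F, hF⟩ := Arith.exists_isFrobeniusAt (CFT.Local.padicPlace_liesOverPrime v) hv.out
  rcases P.new_or_unramified hs hres (dvd_mul_of_dvd_left hvd _) hv2 hF with ⟨hX, hI⟩ | ⟨hI, -⟩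
  · obtain ⟨ε, hε, h1, -⟩ := exists_lineAt P.C.continuous2 hF hX hI
    exact ⟨ε, hε, h1⟩
  · obtain ⟨t, ht, hrt⟩ := hram
    exact absurd (hI t ht) (ne_one_of_residual hres hs hrt)

/-- **The representation at a point.** -/
theorem PointModel.isPointRep (hs : Function.Surjective r) (hc : Selmer.LocConst r)
    (hres : ResidualAt p θ r)
    (hram : ∀ (v : ℕ) [Fact v.Prime], v ∣ p.d → v ≠ 2 → ∃ t ∈ inG v, r t ≠ 1) :
    IsPointRep p θ r P.rep := by
  have h := P.residualTrace hc hres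
  refine ⟨fun n => P.C.rep_continuous n,
    fun ℓ hℓ hl h2 B hB σ hσ => P.C.rep_unramified hℓ hl h2 hB hσ,
    fun ℓ hℓ hl h2 B hB σ hσ => ?_, fun σ m n hσ => P.C.det_rep_congr hσ, fun g => ?_, h,
    fun q hq => P.line_T hs h hq, fun v _ hvd hv2 => P.line_d hs h hvd hv2 (hram v hvd hv2)⟩
  · obtain ⟨t1, d1⟩ := P.C.frobenius hℓ hl h2 hB hσ
    exact ⟨t1.trans (P.hT ℓ hℓ hl), d1⟩
  · have e : residue A2 ((P.rep g).trace - ((r g : M2 (ZMod 2)).trace.val : A2)) = 0 := by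
      rw [map_sub, h g, map_natCast, sub_eq_zero]
      conv_lhs => rw [← ZMod.natCast_zmod_val (r g : M2 (ZMod 2)).trace, map_natCast]
    have := residue_eq_zero_iff_nnnorm.mp e
    rw [AddSubgroupClass.coe_sub, SubringClass.coe_natCast] at this
    exact this

end Fermat.Agent.LT.Points
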