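import Fermat.Agent.LT.Compose.Ramified
import Fermat.Agent.LT.Glue.Ring
import Fermat.Agent.LT.Points.Main

/-!
# The representations at the points for a curve

The residual congruence at the primes outside a negligible set gives the facts at every point,
the line at `2` apart.
-/

set_option autoImplicit false

noncomputable section

namespace Fermat.Agent.LT.Points

open Fermat.Agent.Arith (QBar GQ)
open CFT.Flat (inG)
open LT.Deform (Pts LineAt)
open LT.Curve (Good resRep)
open LT.Compose (Facts CongrOff HasFacts rad)
open Glue (Lam)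

variable {W : WeierstrassCurve ℤ} (h : Good W)

variable {h} {p : Quat.Params} {π : p.CuspHecke →+* Lam (rad W)} {Z : Set ℕ}

theorem residualAt_of_congrOff (hZ : ClassBound.Negligible Z) (hc : CongrOff h p π Z)
    (θ : Pts Compose.A2 π) : ResidualAt p θ.1 (resRep W h.ne_zero) := by
  refine ⟨Z, hZ, fun ℓ hℓ hℓL hℓZ B hB F hF => ?_⟩
  have e := hc ℓ hℓ hℓL hℓZ B hB F hF
  rw [← Int.cast_natCast] at e
  simpa using (Compose.sub_intCast_nilpotent_iff θ _ _).mp e

/-- A model and its line at `2` give the facts. -/
theorem facts_of_model (hd : p.d = rad W) (θ : p.CuspHecke →+* K2) (P : PointModel p θ)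
    (hres : ResidualAt p θ (resRep W h.ne_zero))
    (h2 : IsPointRep p θ (resRep W h.ne_zero) P.rep →
      ∃ ε : GQ → A2, LineAt P.rep (Selmer.dec 2) ε ∧ ∀ t ∈ inG 2, ε t = 1) :
    Facts p.tCusp p.level (resRep W h.ne_zero) (rad W) p.T θ P.rep := by
  have hR := Curve.residual h
  have H := P.isPointRep hR.surjective hR.locConst hres fun v _ hv _ =>
    Compose.exists_inertia_ne_one h (hd ▸ hv)
  refine ⟨H.continuous, H.unram, H.frobenius, H.det_congr, H.residual, H.line_T, fun v _ hv => ?_⟩
  by_cases hv2 : v = 2
  · subst hv2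
    exact h2 H
  · exact H.line_d v (hd ▸ hv) hv2

end Fermat.Agent.LT.Points
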