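import Fermat.Agent.LT.AtTwo.Main
import Fermat.Agent.LT.Compose.Main
import Fermat.Agent.LT.Points.Curve

/-!
# The input on the points of a curve

`pointsInput` proves the hypothesis of `residualThree_of_pointsInput` in `LT/Compose/Main`: for a
curve satisfying `Good` (semistable, negative and even discriminant, odd valuations, no rational
point of order two), the points of a quaternionic Hecke ring over a residual homomorphism congruent
to the curve have representations with the required local properties (`PointsInput`).

At every point the representation is that of an eigenform (`exists_pointModel`); its properties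
away from the line at `2` are collected by `facts_of_model`, and `exists_line_two` supplies that
line from `LT/AtTwo`. It is used in `RT/Frey/Residual`.
-/

set_option autoImplicit false

noncomputable section

namespace Fermat.Agent.LT.Points

open Fermat.Agent.Arith (QBar GQ)
open CFT.Flat (inG)
open LT.Deform (LineAt)
open LT.Curve (Good resRep)
open LT.Compose (PointsInput rad)

variable {W : WeierstrassCurve ℤ} (h : Good W)

/-- The line at `2` of the representation at a point: its restriction to the decomposition group is
ordinary, with quotient character trivial on inertia. -/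
theorem exists_line_two {p : Quat.Params} {θ : p.CuspHecke →+* K2} (P : PointModel p θ)
    (H : IsPointRep p θ (resRep W h.ne_zero) P.rep) :
    ∃ ε : GQ → A2, LineAt P.rep (Selmer.dec 2) ε ∧ ∀ t ∈ inG 2, ε t = 1 := by
  refine AtTwo.exists_lineAt_two (L := p.level)
    (fun h4 => Nat.prime_two.not_isUnit (p.squarefree_level 2 (by simpa using h4))) ∅
    ((P.e.comp (ConductorLevel.eigenChar P.hg ∅).rangeRestrict).comp
      (GaloisReps.toFull _).toRingHom) P.rep (Curve.residual h).surjective
    (Compose.odd_val_two h) (Selmer.rt_sq _)
    (fun g hg => Compose.resRep_inertia_eq_one_iff h (Selmer.rt_sq _) hg) H.continuous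
    (fun l hl hlL hlS hl2 B hB σ hσ => ?_) H.det_congr H.residual
  -- the Frobenius data at `l` are those of the eigenform
  obtain ⟨t1, d1⟩ := P.C.frobenius hl hlL hl2 hB hσ
  refine ⟨?_, d1⟩
  rw [t1, RingHom.comp_apply, RingHom.comp_apply, AlgHom.toRingHom_eq_coe, RingHom.coe_coe,
    GaloisReps.toFull_T hl hlL hlS]

/-- **The input on the points.** -/
theorem pointsInput : PointsInput h := by
  intro p hd π Z hZ hc θ
  obtain ⟨P⟩ := exists_pointModel p θ.1
  exact ⟨P.rep, facts_of_model (h := h) hd θ.1 P (residualAt_of_congrOff hZ hc θ) fun H =>
    exists_line_two h P H⟩

end Fermat.Agent.LT.Points
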