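import Fermat.Agent.LT.Points.Rep
import Fermat.Agent.LT.Selmer.Defs
import Fermat.Agent.LT.ClassBound.Dens

/-!
# Comparing representations by their Frobenius elements

Representations of finite level modulo every power of `2` whose Frobenius elements have the same
trace have the same traces; if the residual image is everything, a matrix is
determined by the traces of its products with the image.
-/

set_option autoImplicit false

noncomputable section

open IsLocalRing

namespace Fermat.Agent.LT.Points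

open Fermat.Agent.Arith (QBar GQ)
open LT.Deform (M2 entryIdx)

variable {S : Type} [CommRing S]

/-- Of finite level. -/
def FiniteLevel (ρ : GQ →* M2 S) : Prop :=
  ∃ L : IntermediateField ℚ QBar, FiniteDimensional ℚ L ∧ ∀ g, (∀ x ∈ L, g x = x) → ρ g = 1

/-- Equal traces at Frobenius elements outside a negligible set give equal traces. -/
theorem trace_eq_of_frobenius {ρ ρ' : GQ →* M2 S} (hρ : FiniteLevel ρ) (hρ' : FiniteLevel ρ')
    {Z : Set ℕ} (hZ : ClassBound.Negligible Z)
    (h : ∀ ℓ : ℕ, ℓ.Prime → ℓ ∉ Z → ∀ B : ValuationSubring QBar, B.LiesOverPrime ℓ →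
      ∀ σ : GQ, B.IsFrobeniusAt σ ℓ → (ρ σ).trace = (ρ' σ).trace) (g : GQ) :
    (ρ g).trace = (ρ' g).trace := by
  obtain ⟨L, hL, h1⟩ := hρ
  obtain ⟨L', hL', h1'⟩ := hρ'
  have : FiniteDimensional ℚ (L ⊔ L' : IntermediateField ℚ QBar) :=
    IntermediateField.finiteDimensional_sup L L'
  obtain ⟨ℓ, hℓ, hℓZ, B, hB, σ, hσ, he⟩ := ClassBound.exists_frobenius_eq_avoiding (ρ.prod ρ')
    (L ⊔ L') (fun s hs => Prod.ext (h1 s fun x hx => hs x ((le_sup_left : L ≤ L ⊔ L') hx))
      (h1' s fun x hx => hs x ((le_sup_right : L' ≤ L ⊔ L') hx))) g hZ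
  have e := h ℓ hℓ hℓZ B hB σ hσ
  rwa [show ρ σ = ρ g from congrArg Prod.fst he, show ρ' σ = ρ' g from congrArg Prod.snd he] at e

/-- Reduction of the entries. -/
def mapRep {T : Type} [CommRing T] (f : S →+* T) (ρ : GQ →* M2 S) : GQ →* M2 T :=
  f.mapMatrix.toMonoidHom.comp ρ

/-- The value of a change of coefficients. -/
theorem mapRep_apply {T : Type} [CommRing T] (f : S →+* T) (ρ : GQ →* M2 S) (g : GQ) :
    mapRep f ρ g = (ρ g).map f := rfl

/-- The trace commutes with change of coefficients. -/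
theorem trace_mapRep {T : Type} [CommRing T] (f : S →+* T) (ρ : GQ →* M2 S) (g : GQ) :
    (mapRep f ρ g).trace = f (ρ g).trace :=
  (AddMonoidHom.map_trace f.toAddMonoidHom _).symm

theorem det_mapRep {T : Type} [CommRing T] (f : S →+* T) (ρ : GQ →* M2 S) (g : GQ) :
    (mapRep f ρ g).det = f (ρ g).det :=
  (RingHom.map_det f _).symm

/-- The reduction modulo `2 ^ n`. -/
abbrev redPow (n : ℕ) : A2 →+* A2 ⧸ Ideal.span {(2 : A2) ^ n} := Ideal.Quotient.mk _

/-- Continuity at `2`. -/
def Continuous2 (ρ : GQ →* M2 A2) : Prop := ∀ n, FiniteLevel (mapRep (redPow n) ρ)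

theorem CharModel.continuous2 {N : ℕ} [NeZero N] {χ : GaloisReps.FullHecke N →+* ℂ}
    {e : χ.range →+* K2} (C : CharModel N χ e) : Continuous2 C.rep := fun n => by
  obtain ⟨L, hL, h⟩ := C.rep_continuous n
  refine ⟨L, hL, fun g hg => ?_⟩
  rw [← map_one (redPow n).mapMatrix]
  ext i k
  exact Ideal.Quotient.eq.mpr (Ideal.mem_span_singleton.mpr (h g hg i k))

theorem nnnorm_two : ‖(2 : K2)‖₊ = 2⁻¹ := by
  have h : Valued.v ((2 : ℕ) : K2) = 1 / ((2 : ℕ) : NNReal) := PadicAlgCl.valuation_p 2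
  rw [PadicAlgCl.valuation_def] at h
  simpa using h

theorem eq_zero_of_forall_two_pow_dvd {x : A2} (h : ∀ n : ℕ, (2 : A2) ^ n ∣ x) : x = 0 := by
  refine Subtype.ext (nnnorm_eq_zero.mp (le_antisymm ?_ bot_le))
  refine ge_of_tendsto' (NNReal.tendsto_pow_atTop_nhds_zero_of_lt_one
    (by norm_num : (2⁻¹ : NNReal) < 1)) fun n => ?_
  obtain ⟨y, rfl⟩ := h n
  show ‖(2 : K2) ^ n * (y : K2)‖₊ ≤ _
  rw [nnnorm_mul, nnnorm_pow, nnnorm_two]
  exact mul_le_of_le_one_right' (mem_padicIntegers_iff 2 |>.mp y.2)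

/-- Continuous representations over `A2` with equal Frobenius traces outside a negligible set
have equal traces. -/
theorem trace_eq_of_frobenius_A2 {ρ ρ' : GQ →* M2 A2} (hρ : Continuous2 ρ) (hρ' : Continuous2 ρ')
    {Z : Set ℕ} (hZ : ClassBound.Negligible Z)
    (h : ∀ ℓ : ℕ, ℓ.Prime → ℓ ∉ Z → ∀ B : ValuationSubring QBar, B.LiesOverPrime ℓ →
      ∀ σ : GQ, B.IsFrobeniusAt σ ℓ → (ρ σ).trace = (ρ' σ).trace) (g : GQ) :
    (ρ g).trace = (ρ' g).trace := by
  refine sub_eq_zero.mp (eq_zero_of_forall_two_pow_dvd fun n => ?_)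
  rw [← Ideal.mem_span_singleton, ← Ideal.Quotient.eq]
  have := trace_eq_of_frobenius (hρ n) (hρ' n) hZ (fun ℓ hℓ hU B hB σ hσ => by
    rw [trace_mapRep, trace_mapRep, h ℓ hℓ hU B hB σ hσ]) g
  rwa [trace_mapRep, trace_mapRep] at this

/-! ### The residual representation -/

/-- The residue field. -/
abbrev k2 : Type := ResidueField A2

/-- An element of the valuation ring reduces to zero exactly when its norm is less than one. -/
theorem residue_eq_zero_iff_nnnorm {x : A2} : residue A2 x = 0 ↔ ‖(x : K2)‖₊ < 1 := by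
  have hx : ‖(x : K2)‖₊ ≤ 1 := (mem_padicIntegers_iff 2).mp x.2
  have hu : IsUnit x ↔ ‖(x : K2)‖₊ = 1 :=
    (Valuation.integer.integers (Valued.v : Valuation K2 NNReal)).isUnit_iff_valuation_eq_one
  rw [residue_eq_zero_iff, mem_maximalIdeal, mem_nonunits_iff, hu]
  exact ⟨fun h => lt_of_le_of_ne hx h, fun h => h.ne⟩

/-- The residue field has characteristic `2`. -/
instance : CharP k2 2 := by
  have h2 : residue A2 ((2 : ℕ) : A2) = 0 := by
    rw [residue_eq_zero_iff_nnnorm]
    show ‖((2 : ℕ) : K2)‖₊ < 1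
    rw [Nat.cast_ofNat, nnnorm_two]
    norm_num
  rw [map_natCast] at h2
  exact CharTwo.of_one_ne_zero_of_two_eq_zero one_ne_zero (by exact_mod_cast h2)

/-- The prime field of the residue field. -/
def res2 : ZMod 2 →+* k2 := ZMod.castHom dvd_rfl k2

variable (ρ : GQ →* M2 A2) (r : GQ →* (M2 (ZMod 2))ˣ)

/-- The residual traces are those of `r`. -/
def ResidualTrace : Prop :=
  ∀ g, residue A2 (ρ g).trace = res2 ((r g : M2 (ZMod 2)).trace)

variable {ρ r}

theorem residualTrace_of_frobenius (hρ : Continuous2 ρ) (hr : Selmer.LocConst r)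
    {Z : Set ℕ} (hZ : ClassBound.Negligible Z)
    (h : ∀ ℓ : ℕ, ℓ.Prime → ℓ ∉ Z → ∀ B : ValuationSubring QBar, B.LiesOverPrime ℓ →
      ∀ σ : GQ, B.IsFrobeniusAt σ ℓ →
        residue A2 (ρ σ).trace = res2 ((r σ : M2 (ZMod 2)).trace)) : ResidualTrace ρ r := by
  intro g
  obtain ⟨L, hL, hL1⟩ := hr
  let r' : GQ →* M2 k2 := mapRep res2 ((Units.coeHom _).comp r)
  have hr' : FiniteLevel r' := ⟨L, hL, fun g hg => by
    show ((r g : M2 (ZMod 2))).map res2 = 1
    rw [hL1 g 1 fun x hx => hg x hx, map_one, Units.val_one,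
      Matrix.map_one _ (map_zero _) (map_one _)]⟩
  have hρ' : FiniteLevel (mapRep (residue A2) ρ) := by
    obtain ⟨L, hL, h1⟩ := hρ 1
    refine ⟨L, hL, fun g hg => ?_⟩
    rw [← map_one (residue A2).mapMatrix]
    ext i k
    have e := congrFun (congrFun (h1 g hg) i) k
    rw [← map_one (redPow 1).mapMatrix] at e
    obtain ⟨y, hy⟩ := Ideal.mem_span_singleton.mp (Ideal.Quotient.eq.mp e)
    show residue A2 (ρ g i k) = residue A2 ((1 : M2 A2) i k)
    have h20 : residue A2 (2 : A2) = 0 := (map_ofNat (residue A2) 2).trans CharTwo.two_eq_zero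
    rw [← sub_eq_zero, ← map_sub, hy, pow_one, map_mul, h20, zero_mul]
  have := trace_eq_of_frobenius hρ' hr' hZ (fun ℓ hℓ hU B hB σ hσ => by
    rw [trace_mapRep, trace_mapRep, h ℓ hℓ hU B hB σ hσ]
    rfl) g
  rwa [trace_mapRep, trace_mapRep] at this

/-- Four elements whose trace pairing is perfect. -/
def basis4 : Fin 4 → M2 (ZMod 2) := ![1, !![1, 1; 0, 1], !![1, 0; 1, 1], !![1, 1; 1, 0]]

/-- With surjective residual image, a matrix with all traces `tr (X * ρ g)` zero is zero. -/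
theorem eq_zero_of_trace (hρ : ResidualTrace ρ r) (hs : Function.Surjective r) {X : M2 A2}
    (hX : ∀ g, (X * ρ g).trace = 0) : X = 0 := by
  have hex : ∀ i, ∃ g, (r g : M2 (ZMod 2)) = basis4 i := fun i => by
    have hu : IsUnit (basis4 i) := (Matrix.isUnit_iff_isUnit_det _).mpr (by fin_cases i <;> decide)
    obtain ⟨g, hg⟩ := hs hu.unit
    exact ⟨g, by rw [hg]; rfl⟩
  choose g hg using hex
  let V : Matrix (Fin 4) (Fin 4) A2 :=
    Matrix.of fun i c => ρ (g i) (entryIdx c).1 (entryIdx c).2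
  let W : Matrix (Fin 4) (Fin 4) A2 :=
    Matrix.of fun c i => ρ (g i) (entryIdx c).2 (entryIdx c).1
  have hVW : ∀ i j, (V * W) i j = (ρ (g i * g j)).trace := fun i j => by
    simp [V, W, entryIdx, Matrix.mul_apply, Fin.sum_univ_four, Fin.sum_univ_two,
      Matrix.trace_fin_two]
    ring
  have hdet : V.det ≠ 0 := fun h0 => by
    have h1 : residue A2 ((V * W).det) = 0 := by rw [Matrix.det_mul, h0, zero_mul, map_zero]
    rw [RingHom.map_det, show (residue A2).mapMatrix (V * W) =
      res2.mapMatrix (Matrix.of fun i j => (basis4 i * basis4 j).trace)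
          from Matrix.ext fun i j => by
        show residue A2 ((V * W) i j) = res2 _
        rw [hVW, hρ, map_mul, Units.val_mul, hg, hg]
        rfl, ← RingHom.map_det] at h1
    rw [show (Matrix.of fun i j => (basis4 i * basis4 j).trace).det = 1 by decide +kernel,
      map_one] at h1
    exact one_ne_zero h1
  have hw : V.mulVec (fun c => X (entryIdx c).2 (entryIdx c).1) = 0 := funext fun i => by
    have h := hX (g i)
    rw [Matrix.trace_fin_two, Matrix.mul_apply, Matrix.mul_apply, Fin.sum_univ_two,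
      Fin.sum_univ_two] at h
    simp [V, entryIdx, Matrix.mulVec, dotProduct, Fin.sum_univ_four]
    linear_combination h
  have h0 := Matrix.eq_zero_of_mulVec_eq_zero hdet hw
  ext a b
  fin_cases a <;> fin_cases b
  · exact congrArg Subtype.val (congrFun h0 0)
  · exact congrArg Subtype.val (congrFun h0 2)
  · exact congrArg Subtype.val (congrFun h0 1)
  · exact congrArg Subtype.val (congrFun h0 3)

/-- Triviality passes along equal traces. -/
theorem eq_one_of_trace_eq (hρ : ResidualTrace ρ r) (hs : Function.Surjective r)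
    {ρ' : GQ →* M2 A2} (he : ∀ g, (ρ g).trace = (ρ' g).trace) {τ : GQ} (hτ : ρ' τ = 1) :
    ρ τ = 1 := by
  refine sub_eq_zero.mp (eq_zero_of_trace hρ hs fun g => ?_)
  rw [sub_mul, one_mul, Matrix.trace_sub, ← map_mul, he, he, map_mul, hτ, one_mul, sub_self]

/-- Where `r` is not trivial the representation is not. -/
theorem ne_one_of_residual (hρ : ResidualTrace ρ r) (hs : Function.Surjective r) {τ : GQ}
    (hτ : r τ ≠ 1) : ρ τ ≠ 1 := fun h1 => by
  have key : ∀ m : M2 (ZMod 2), IsUnit m.det → m ≠ 1 →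
      ∃ x : M2 (ZMod 2), IsUnit x.det ∧ (m * x).trace ≠ x.trace := by decide +kernel
  obtain ⟨x, hx, hne⟩ := key (r τ : M2 (ZMod 2))
    ((Matrix.isUnit_iff_isUnit_det _).mp (r τ).isUnit) (fun e => hτ (Units.ext e))
  obtain ⟨g, hg⟩ := hs ((Matrix.isUnit_iff_isUnit_det _).mpr hx).unit
  have e := hρ (τ * g)
  rw [map_mul, h1, one_mul, hρ g, map_mul, Units.val_mul, hg, IsUnit.unit_spec] at e
  exact hne (res2.injective e).symm

end Fermat.Agent.LT.Points
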