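import Fermat.Agent.LT.Points.Monodromy

/-!
# The dichotomy at a prime exactly dividing the level

A character of the Hecke algebra of level `M q` is either non-zero on some element killing the
degeneracy images, or its system at the good primes occurs at level `M`, with `U_q` a root of
`X ^ 2 - T_q X + q`.
-/

set_option autoImplicit false

noncomputable section

open CongruenceSubgroup Matrix

namespace Fermat.Agent.LT.Points

open GaloisReps (coord FullHecke homOp latticeMat)
open HeckeDuality (heckeOp)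
open Periods (homT homU HeckeSystem)
open NewformLocal.Toric (IsDegeneracySystems apply_eq_of_rep)

section Coordinates

variable (N : ℕ) [NeZero N]

/-- The homomorphism with given coordinates. -/
def homOf : (Fin (2 * Gamma0.genus N) → ℤ) →+ (Additive (Gamma0 N) →+ ℤ) where
  toFun v := ∑ i, v i • GaloisReps.dualHom N i
  map_zero' := by simp
  map_add' v w := by simp [add_smul, Finset.sum_add_distrib]

variable {N}

theorem homOf_mem (v : Fin (2 * Gamma0.genus N) → ℤ) :
    homOf N v ∈ Gamma0.ellParHoms (Gamma0 N) ℤ :=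
  sum_mem fun i _ => zsmul_mem (GaloisReps.dualHom_mem i) _

theorem coord_homOf (v : Fin (2 * Gamma0.genus N) → ℤ) : coord N ℤ (homOf N v) = v := by
  funext i
  simp [homOf, map_sum, map_zsmul, GaloisReps.coord_dualHom, Finset.sum_apply, Pi.single_apply]

theorem homOp_mem (ℓ : ℕ) (hℓ : ℓ.Prime) {φ : Additive (Gamma0 N) →+ ℤ}
    (hφ : φ ∈ Gamma0.ellParHoms (Gamma0 N) ℤ) :
    homOp N ℤ ℓ hℓ φ ∈ Gamma0.ellParHoms (Gamma0 N) ℤ := fun γ hγ => by
  by_cases h : ℓ ∣ N
  · rw [homOp, dif_pos h]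
    exact HeckeSystem.apply_eq_zero_of_trace_sq_le _ hφ γ hγ
  · rw [homOp, dif_neg h]
    have : NeZero ℓ := ⟨hℓ.ne_zero⟩
    exact HeckeSystem.apply_eq_zero_of_trace_sq_le _ hφ γ hγ

theorem coord_homOp_int (ℓ : ℕ) (hℓ : ℓ.Prime) {φ : Additive (Gamma0 N) →+ ℤ}
    (hφ : φ ∈ Gamma0.ellParHoms (Gamma0 N) ℤ) :
    coord N ℤ (homOp N ℤ ℓ hℓ φ) = (latticeMat N (heckeOp N 2 ℓ hℓ)).mulVec (coord N ℤ φ) := by
  rw [GaloisReps.coord_homOp ℓ hℓ hφ, GaloisReps.latticeMat_heckeOp]
  simp

theorem homOf_mulVec (ℓ : ℕ) (hℓ : ℓ.Prime) (v : Fin (2 * Gamma0.genus N) → ℤ) :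
    homOf N ((latticeMat N (heckeOp N 2 ℓ hℓ)).mulVec v) = homOp N ℤ ℓ hℓ (homOf N v) :=
  GaloisReps.eq_of_coord (homOf_mem _) (homOp_mem ℓ hℓ (homOf_mem v))
    (by rw [coord_homOp_int ℓ hℓ (homOf_mem v), coord_homOf, coord_homOf])

end Coordinates

section Level

variable {q M : ℕ} [NeZero M] [NeZero (M * q)] (h : LevelRaising.RaiseData q M)
include h

omit [NeZero M] in
theorem cor_homU {B : Type} [AddCommGroup B] (φ : Additive (Gamma0 (M * q)) →+ B) :
    h.corSys.apply (homOp (M * q) B q h.prime φ) = q • h.starSys.apply φ := by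
  rw [homOp, dif_pos (dvd_mul_left q M)]
  have e := congrArg h.corSys.apply (h.res_star ℤ φ)
  rw [h.cor_res, ← Periods.HeckeSystem.op_apply (S := h.corSys) ℤ, map_add] at e
  rw [Periods.HeckeSystem.op_apply, Periods.HeckeSystem.op_apply, h.cor_w, succ_nsmul] at e
  exact (add_right_cancel e).symm

theorem star_homU {B : Type} [AddCommGroup B] (φ : Additive (Gamma0 (M * q)) →+ B) :
    h.starSys.apply (homOp (M * q) B q h.prime φ) =
      homOp M B q h.prime (h.starSys.apply φ) - h.corSys.apply φ := by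
  rw [homOp, dif_pos (dvd_mul_left q M), homOp, dif_neg h.not_dvd]
  have e := congrArg h.starSys.apply (h.res_star ℤ φ)
  rw [h.star_res ℤ, ← Periods.HeckeSystem.op_apply (S := h.starSys) ℤ (_ + _), map_add] at e
  simp only [Periods.HeckeSystem.op_apply] at e
  rw [← h.cor_w (h.wSys.apply φ), h.w_w] at e
  exact eq_sub_of_add_eq e.symm

/-- The two degeneracy images in coordinates. -/
def degCoord (i : Fin 2) :
    (Fin (2 * Gamma0.genus (M * q)) → ℤ) →+ (Fin (2 * Gamma0.genus M) → ℤ) :=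
  (coord M ℤ).comp (((![h.corSys, h.starSys] i).op ℤ).toAddMonoidHom.comp (homOf (M * q)))

theorem degCoord_apply (i : Fin 2) (v : Fin (2 * Gamma0.genus (M * q)) → ℤ) :
    degCoord h i v = coord M ℤ ((![h.corSys, h.starSys] i).apply (homOf (M * q) v)) := rfl

omit [NeZero M] [NeZero (M * q)] in
theorem deg_mem (i : Fin 2) {φ : Additive (Gamma0 (M * q)) →+ ℤ}
    (hφ : φ ∈ Gamma0.ellParHoms (Gamma0 (M * q)) ℤ) :
    (![h.corSys, h.starSys] i).apply φ ∈ Gamma0.ellParHoms (Gamma0 M) ℤ := fun γ hγ =>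
  HeckeSystem.apply_eq_zero_of_trace_sq_le _ hφ γ hγ

/-- `a` moves the degeneracy images by the matrix `b`. -/
def Intertwines (a : FullHecke (M * q)) (b : Matrix (Fin 2) (Fin 2) (FullHecke M)) : Prop :=
  ∀ v i, degCoord h i ((latticeMat (M * q) a).mulVec v) =
    ∑ j, (latticeMat M (b i j)).mulVec (degCoord h j v)

theorem intertwines_T {ℓ : ℕ} (hℓ : ℓ.Prime) (hℓN : ¬ ℓ ∣ M * q) :
    Intertwines h (heckeOp (M * q) 2 ℓ hℓ)
      (algebraMap (FullHecke M) _ (heckeOp M 2 ℓ hℓ)) := by
  intro v i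
  have hℓM : ¬ ℓ ∣ M := fun hh => hℓN (hh.trans (dvd_mul_right M q))
  rw [degCoord_apply, homOf_mulVec, Fin.sum_univ_two]
  have e : (![h.corSys, h.starSys] i).apply (homOp (M * q) ℤ ℓ hℓ (homOf (M * q) v)) =
      homOp M ℤ ℓ hℓ ((![h.corSys, h.starSys] i).apply (homOf (M * q) v)) := by
    let γ : ℤ →+ ℂ := (Int.castRingHom ℂ).toAddMonoidHom
    suffices e' : γ.comp ((![h.corSys, h.starSys] i).apply (homOp (M * q) ℤ ℓ hℓ (homOf (M * q) v)))
      =
        γ.comp (homOp M ℤ ℓ hℓ ((![h.corSys, h.starSys] i).apply (homOf (M * q) v))) from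
      AddMonoidHom.ext fun x => Int.cast_injective (α := ℂ) (DFunLike.congr_fun e' x)
    rw [← Periods.HeckeSystem.apply_comp, ← GaloisReps.homOp_comp, ← GaloisReps.homOp_comp,
      ← Periods.HeckeSystem.apply_comp, homOp, dif_neg hℓN, homOp, dif_neg hℓM]
    fin_cases i
    · exact (h.homT_cor (R := ℂ) (by norm_num) (by simp) hℓ hℓM hℓN _).symm
    · exact (h.homT_star (R := ℂ) (by norm_num) (by simp) hℓ hℓM hℓN _).symm
  rw [e, coord_homOp_int ℓ hℓ (deg_mem h i (homOf_mem v)), ← degCoord_apply]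
  fin_cases i <;> simp [Matrix.algebraMap_matrix_apply, Matrix.zero_mulVec]

/-- The matrix of `U_q` on the pair of degeneracy images. -/
def pairU : Matrix (Fin 2) (Fin 2) (FullHecke M) :=
  !![0, (q : FullHecke M); -1, heckeOp M 2 q h.prime]

theorem intertwines_U : Intertwines h (heckeOp (M * q) 2 q h.prime) (pairU h) := by
  intro v i
  rw [degCoord_apply, homOf_mulVec, Fin.sum_univ_two]
  fin_cases i
  · show coord M ℤ (h.corSys.apply _) = _
    rw [cor_homU, map_nsmul]
    simp only [pairU, Fin.zero_eta, Matrix.of_apply, Matrix.cons_val', Matrix.cons_val_zero,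
      Matrix.cons_val_one, Matrix.cons_val_fin_one, map_zero, Matrix.zero_mulVec, zero_add,
      map_natCast, degCoord_apply]
    rw [← nsmul_one q, Matrix.smul_mulVec, Matrix.one_mulVec]
  · show coord M ℤ (h.starSys.apply _) = _
    rw [star_homU, map_sub]
    rw [coord_homOp_int q h.prime (φ := h.starSys.apply (homOf (M * q) v))
      (deg_mem h 1 (homOf_mem v))]
    simp only [pairU, Fin.mk_one, Matrix.of_apply, Matrix.cons_val', Matrix.cons_val_zero,
      Matrix.cons_val_one, Matrix.cons_val_fin_one, map_neg, map_one, Matrix.neg_mulVec,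
      Matrix.one_mulVec, degCoord_apply]
    abel

theorem intertwines_of_mem {x : FullHecke (M * q) × Matrix (Fin 2) (Fin 2) (FullHecke M)}
    (hx : x ∈ Algebra.adjoin ℤ (insert (heckeOp (M * q) 2 q h.prime, pairU h)
      {y | ∃ ℓ, ∃ hℓ : ℓ.Prime, ¬ ℓ ∣ M * q ∧
        y = (heckeOp (M * q) 2 ℓ hℓ, algebraMap (FullHecke M) _ (heckeOp M 2 ℓ hℓ))})) :
    Intertwines h x.1 x.2 := by
  induction hx using Algebra.adjoin_induction with
  | mem y hy =>
    rcases hy with rfl | ⟨ℓ, hℓ, hℓN, rfl⟩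
    · exact intertwines_U h
    · exact intertwines_T h hℓ hℓN
  | algebraMap n =>
    intro v i
    simp only [eq_intCast, Prod.fst_intCast, Prod.snd_intCast, map_intCast]
    rw [← zsmul_one n, Matrix.smul_mulVec, Matrix.one_mulVec, map_zsmul, Fin.sum_univ_two,
      ← zsmul_one (R := Matrix (Fin 2) (Fin 2) (FullHecke M)) n]
    fin_cases i <;> simp [Matrix.zero_mulVec]
  | add y z _ _ hy hz =>
    intro v i
    simp only [Prod.fst_add, Prod.snd_add, map_add, Matrix.add_mulVec, Matrix.add_apply, hy v i,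
      hz v i, Finset.sum_add_distrib]
  | mul y z _ _ hy hz =>
    intro v i
    rw [Prod.fst_mul, Prod.snd_mul, map_mul, ← Matrix.mulVec_mulVec, hy]
    simp only [hz v, Matrix.mul_apply, map_sum, map_mul, Matrix.sum_mulVec, Matrix.mulVec_sum,
      Matrix.mulVec_mulVec]
    rw [Finset.sum_comm]

end Level

variable {q M L : ℕ} [NeZero M] [NeZero L]

/-- **The dichotomy.** -/
theorem killing_or_old (h : LevelRaising.RaiseData q M) (hL : L = M * q)
    (χ : FullHecke L →+* ℂ) :
    (∃ t, IsKilling q M t ∧ χ t ≠ 0) ∨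
      ∃ θ : FullHecke M →+* ℂ,
        (∀ (ℓ : ℕ) (hℓ : ℓ.Prime), ¬ ℓ ∣ L → θ (heckeOp M 2 ℓ hℓ) = χ (heckeOp L 2 ℓ hℓ)) ∧
          χ (heckeOp L 2 q h.prime) ^ 2 -
            θ (heckeOp M 2 q h.prime) * χ (heckeOp L 2 q h.prime) + q = 0 := by
  classical
  subst hL
  let gen : Set (FullHecke (M * q) × Matrix (Fin 2) (Fin 2) (FullHecke M)) :=
    insert (heckeOp (M * q) 2 q h.prime, pairU h) {y | ∃ ℓ, ∃ hℓ : ℓ.Prime, ¬ ℓ ∣ M * q ∧
      y = (heckeOp (M * q) 2 ℓ hℓ, algebraMap (FullHecke M) _ (heckeOp M 2 ℓ hℓ))}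
  let G := Algebra.adjoin ℤ gen
  -- `G` is the algebra of pairs (operator at level `M q`, its matrix on the two degeneracy images)
  by_cases hker : ∀ x ∈ G, x.2 = 0 → χ x.1 = 0
  swap
  · -- an operator with zero matrix kills both images
    push Not at hker
    obtain ⟨x, hx, hx2, hχ⟩ := hker
    refine Or.inl ⟨x.1, fun C S W hS φ hφ c hc => ?_, hχ⟩
    have e : φ = homOf (M * q) ((latticeMat _ x.1).mulVec c) :=
      GaloisReps.eq_of_coord hφ (homOf_mem _) (by rw [hc, coord_homOf])
    have hz : ∀ i, (![h.corSys, h.starSys] i).apply φ = 0 := fun i => by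
      refine GaloisReps.eq_of_coord (deg_mem h i hφ) (zero_mem _) ?_
      rw [map_zero, e, ← degCoord_apply, intertwines_of_mem h hx c i, hx2]
      simp [Matrix.zero_mulVec]
    exact ⟨(apply_eq_of_rep C h.corSys (fun i => hS.cor_rep i) φ).trans (hz 0),
      (apply_eq_of_rep S h.starSys (fun i => hS.star_rep i) φ).trans (hz 1)⟩
  -- otherwise `χ` factors through the matrices; these lie in the finite commutative algebra `E`
  -- generated by `pairU`, to which it extends, and on the scalars this is a system of level `M`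
  refine Or.inr ?_
  let E := Algebra.adjoin (FullHecke M) ({pairU h} : Set (Matrix (Fin 2) (Fin 2) (FullHecke M)))
  let : CommRing E := open scoped IsMulCommutative in inferInstance
  have : Module.Finite ℤ (FullHecke M) := IntegralStructure.heckeAlgebra_finite M 2 ∅
  have : Module.Finite ℤ E :=
    Module.Finite.of_injective ((Subalgebra.toSubmodule E).subtype.restrictScalars ℤ)
      Subtype.val_injective
  let snd : G →+* Matrix (Fin 2) (Fin 2) (FullHecke M) :=
    (RingHom.snd _ _).comp G.val.toRingHom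
  have hmem : ∀ x : G, snd x ∈ E := by
    rintro ⟨x, hx⟩
    show x.2 ∈ E
    induction hx using Algebra.adjoin_induction with
    | mem y hy =>
      rcases hy with rfl | ⟨ℓ, hℓ, -, rfl⟩
      · exact Algebra.subset_adjoin rfl
      · exact E.algebraMap_mem _
    | algebraMap n => rw [eq_intCast, Prod.snd_intCast]; exact intCast_mem E n
    | add y z _ _ hy hz => exact add_mem hy hz
    | mul y z _ _ hy hz => exact mul_mem hy hz
  let r : G →+* E := snd.codRestrict E hmem
  let χG : G →+* ℂ := χ.comp ((RingHom.fst _ _).comp G.val.toRingHom)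
  have hle : RingHom.ker r.rangeRestrict ≤ RingHom.ker χG := fun x hx =>
    hker x x.2 (congrArg Subtype.val (congrArg Subtype.val (RingHom.mem_ker.mp hx)))
  let χr : r.range →+* ℂ :=
    RingHom.liftOfSurjective r.rangeRestrict r.rangeRestrict_surjective ⟨χG, hle⟩
  obtain ⟨e, he⟩ := GaloisReps.exists_extend_of_int r.range.subtype Subtype.val_injective χr
  have hval : ∀ x : G, e (r x) = χ x.1.1 := fun x => (he (r.rangeRestrict x)).trans
    (RingHom.liftOfRightInverse_comp_apply _ _ _ ⟨χG, hle⟩ x)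
  refine ⟨e.comp (algebraMap (FullHecke M) E), fun ℓ hℓ hℓN => ?_, ?_⟩
  · refine Eq.trans ?_ (hval ⟨_, Algebra.subset_adjoin (Or.inr ⟨ℓ, hℓ, hℓN, rfl⟩)⟩)
    rfl
  · let u : G := ⟨_, Algebra.subset_adjoin (Or.inl rfl)⟩
    have hB : r u ^ 2 - algebraMap (FullHecke M) E (heckeOp M 2 q h.prime) * r u + (q : E) = 0 := by
      refine Subtype.ext ?_
      push_cast
      show pairU h ^ 2 - algebraMap (FullHecke M) _ (heckeOp M 2 q h.prime) * pairU h + _ = 0
      rw [sq]
      ext i j
      fin_cases i <;> fin_cases j <;>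
        simp [pairU, Matrix.mul_apply, Matrix.algebraMap_matrix_apply, Matrix.natCast_apply]
    have := congrArg e hB
    rw [map_add, map_sub, map_pow, map_mul, map_natCast, map_zero, hval] at this
    exact this

omit [NeZero M] in
/-- `U_q` squares to one on what is killed. -/
theorem IsKilling.sq (h : LevelRaising.RaiseData q M) (hL : L = M * q) {t : FullHecke L}
    (ht : IsKilling q M t) :
    heckeOp L 2 q h.prime * heckeOp L 2 q h.prime * t = t := by
  subst hL
  refine GaloisReps.latticeMat_injective (Matrix.toLin'.injective (LinearMap.ext fun v => ?_))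
  rw [Matrix.toLin'_apply, Matrix.toLin'_apply, map_mul, map_mul, ← Matrix.mulVec_mulVec,
    ← Matrix.mulVec_mulVec]
  set w := (latticeMat (M * q) t).mulVec v
  obtain ⟨h1, h2⟩ := ht h.corSys h.starSys h.wSys
    ⟨fun _ => rfl, fun _ => rfl, rfl, fun φ => h.cor_w φ⟩ _ (homOf_mem w) v (coord_homOf w)
  have e := h.homU_sq_eq ℤ h1 h2
  have hop : ∀ φ, homOp (M * q) ℤ q h.prime φ =
      homU h.prime.ne_zero (dvd_mul_left q M) ℤ φ := fun φ => by
    rw [homOp, dif_pos (dvd_mul_left q M)]; rfl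
  rw [← hop, ← hop, ← homOf_mulVec, ← homOf_mulVec] at e
  have e' := congrArg (coord (M * q) ℤ) e
  rwa [coord_homOf, coord_homOf] at e'

end Fermat.Agent.LT.Points
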