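import Fermat.Agent.LT.Points.Compare
import Fermat.Agent.LT.Local.Unramified

/-!
# The line at a prime with a signed Frobenius relation

If a Frobenius element `X` satisfies `(X - q e) (X ^ 2 - 1) = 0`, `e = ±1`, with determinant `q`,
and inertia has determinant one and is killed by `X ^ 2 - 1`, the decomposition group fixes a line
with quotient character an unramified sign.
-/

set_option autoImplicit false

noncomputable section

namespace Fermat.Agent.LT.Points

open Fermat.Agent.Arith (QBar GQ)
open LT.Deform (M2 LineAt)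
open CFT.Flat (decG inG)

section Algebra

variable {S : Type} [CommRing S] [IsDomain S]

omit [IsDomain S] in
theorem cayley2 (X : M2 S) : X * X = X.trace • X - X.det • 1 := by
  ext a b
  fin_cases a <;> fin_cases b <;>
    simp [Matrix.mul_apply, Matrix.trace_fin_two, Matrix.det_fin_two, Fin.sum_univ_two] <;> ring

/-- The relations at a Frobenius element. -/
structure Signed (X : M2 S) (q : ℕ) (e : S) : Prop where
  rel : (X - ((q : S) * e) • 1) * (X * X - 1) = 0
  det : X.det = (q : S)
  sign : e * e = 1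
  q_ne_zero : (q : S) ≠ 0
  q_ne_one : (q : S) - 1 ≠ 0
  two_q_succ : 2 * ((q : S) + 1) ≠ 0

/-- An element of inertia. -/
structure Tame (X T : M2 S) : Prop where
  rel : (T - 1) * (X * X - 1) = 0
  det : T.det = 1

variable {X : M2 S} {q : ℕ} {e : S} (h : Signed X q e)
include h

theorem Signed.not_scalar {a b : S} (hab : a • X + b • 1 = 0) : a = 0 ∧ b = 0 := by
  by_contra hne
  have ha : a ≠ 0 := fun h0 => hne ⟨h0, by
    have := congrFun (congrFun hab 0) 0
    simpa [h0] using this⟩
  have h01 := congrFun (congrFun hab 0) 1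
  have h10 := congrFun (congrFun hab 1) 0
  have h00 := congrFun (congrFun hab 0) 0
  have h11 := congrFun (congrFun hab 1) 1
  simp [ha] at h01 h10 h00 h11
  have hc : X 1 1 = X 0 0 := mul_left_cancel₀ ha (by linear_combination h11 - h00)
  have hd := h.det
  rw [Matrix.det_fin_two, h01, hc, zero_mul, sub_zero] at hd
  have hr := congrFun (congrFun h.rel 0) 0
  simp [Matrix.mul_apply, Fin.sum_univ_two, h01, h10] at hr
  rcases hr with hr | hr
  · refine mul_ne_zero h.q_ne_zero h.q_ne_one ?_
    rw [sub_eq_zero.mp hr] at hd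
    linear_combination hd - (q : S) * (q : S) * h.sign
  · exact h.q_ne_one (by linear_combination hr - hd)

/-- The trace of the Frobenius element. -/
theorem Signed.trace : X.trace = e * ((q : S) + 1) := by
  have hex : (X.trace * X.trace - ((q : S) + 1) - (q : S) * e * X.trace) • X +
      ((q : S) * (e * ((q : S) + 1) - X.trace)) • (1 : M2 S) = 0 := by
    rw [← h.rel]
    conv_rhs =>
      rw [cayley2 X, h.det, sub_mul, mul_sub, mul_sub, Algebra.mul_smul_comm, cayley2 X, h.det]
    simp only [Algebra.smul_mul_assoc, Algebra.mul_smul_comm, one_mul, mul_one]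
    module
  exact (sub_eq_zero.mp ((mul_eq_zero.mp (h.not_scalar hex).2).resolve_left h.q_ne_zero)).symm

/-- The quadratic relation. -/
theorem Signed.quad : (X - ((q : S) * e) • 1) * (X - e • 1) = 0 := by
  rw [sub_mul, mul_sub, mul_sub, cayley2 X, h.det, h.trace]
  simp only [Algebra.smul_mul_assoc, Algebra.mul_smul_comm, one_mul, mul_one, smul_smul]
  match_scalars <;> first | ring1 | linear_combination (q : S) * h.sign

theorem Signed.sub_ne_zero : X - e • 1 ≠ 0 := fun h0 => by
  have := (h.not_scalar (a := 1) (b := -e) (by rw [one_smul, neg_smul, ← sub_eq_add_neg, h0])).1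
  exact one_ne_zero this

variable {T : M2 S} (hT : Tame X T)
include hT

theorem Signed.tame_mul : (T - 1) * (X - e • 1) = 0 := by
  have h1 : (T - 1) * (X - e • 1) * (X + e • 1) = 0 := by
    rw [mul_assoc, ← hT.rel]
    congr 1
    simp only [sub_mul, mul_add, Algebra.smul_mul_assoc, Algebra.mul_smul_comm, one_mul, mul_one,
      smul_sub]
    match_scalars <;> first | ring1 | linear_combination h.sign | linear_combination -h.sign
  have hd : (X + e • 1).det = 2 * ((q : S) + 1) := by
    have := h.trace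
    have hd := h.det
    rw [Matrix.trace_fin_two] at this
    rw [Matrix.det_fin_two] at hd
    simp [Matrix.det_fin_two]
    linear_combination hd + e * this + ((q : S) + 1) * h.sign + h.sign
  have h2 := congrArg (· * (X + e • 1).adjugate) h1
  simp only [zero_mul, mul_assoc, Matrix.mul_adjugate, Algebra.mul_smul_comm, mul_one, hd] at h2
  exact (smul_eq_zero.mp h2).resolve_left h.two_q_succ

theorem Signed.tame_trace : T.trace = 2 := by
  have h0 : (T - 1).det = 0 := by
    by_contra hne
    have h2 := congrArg ((T - 1).adjugate * ·) (h.tame_mul hT)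
    simp only [mul_zero, ← mul_assoc, Matrix.adjugate_mul, Algebra.smul_mul_assoc, one_mul] at h2
    exact h.sub_ne_zero ((smul_eq_zero.mp h2).resolve_left hne)
  have hd := hT.det
  rw [Matrix.det_fin_two] at hd h0
  simp at h0
  rw [Matrix.trace_fin_two]
  linear_combination hd - h0

theorem Signed.mul_tame : (X - ((q : S) * e) • 1) * (T - 1) = 0 := by
  have h1 := congrArg Matrix.adjugate (h.tame_mul hT)
  rw [Matrix.adjugate_mul_distrib] at h1
  have a1 : (X - e • 1).adjugate = -(X - ((q : S) * e) • 1) := by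
    have := h.trace
    rw [Matrix.trace_fin_two] at this
    rw [Matrix.adjugate_fin_two]
    ext a b
    fin_cases a <;> fin_cases b <;> simp <;> linear_combination this
  have a2 : (T - 1).adjugate = -(T - 1) := by
    have := h.tame_trace hT
    rw [Matrix.trace_fin_two] at this
    rw [Matrix.adjugate_fin_two]
    ext a b
    fin_cases a <;> fin_cases b <;> simp <;> linear_combination this
  rw [a1, a2, neg_mul_neg, Matrix.adjugate_fin_two] at h1
  rw [h1]
  ext a b
  fin_cases a <;> fin_cases b <;> simp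

theorem Signed.tame_fix {Y : M2 S} (hY : (X - ((q : S) * e) • 1) * Y = 0) : T * Y = Y := by
  have h1 : (T - 1) * Y = 0 := by
    have h2 : (X - e • 1) * Y = (e * ((q : S) - 1)) • Y := by
      have : X - e • 1 = (X - ((q : S) * e) • 1) + (e * ((q : S) - 1)) • 1 := by module
      rw [this, add_mul, hY, zero_add, Algebra.smul_mul_assoc, one_mul]
    have h3 := congrArg ((T - 1) * ·) h2
    simp only [← mul_assoc, h.tame_mul hT, zero_mul, Algebra.mul_smul_comm] at h3
    refine (smul_eq_zero.mp h3.symm).resolve_left (mul_ne_zero (fun he => ?_) h.q_ne_one)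
    exact one_ne_zero (h.sign.symm.trans (by rw [he, zero_mul]))
  rwa [sub_mul, one_mul, sub_eq_zero] at h1

omit [IsDomain S] hT h in
theorem Signed.pow_fix {Y : M2 S} (hY : (X - ((q : S) * e) • 1) * Y = 0) (i : ℕ) :
    X ^ i * Y = ((q : S) * e) ^ i • Y := by
  rw [sub_mul, Algebra.smul_mul_assoc, one_mul, sub_eq_zero] at hY
  induction i with
  | zero => rw [pow_zero, pow_zero, one_mul, one_smul]
  | succ i ih => rw [pow_succ, mul_assoc, hY, Algebra.mul_smul_comm, ih, smul_smul, pow_succ']

omit hT in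
theorem Signed.trace_pow (i : ℕ) : (X ^ i).trace = e ^ i * ((q : S) ^ i + 1) := by
  induction i using Nat.twoStepInduction with
  | zero => simp [Matrix.trace_one]; norm_num
  | one => rw [pow_one, pow_one, pow_one, h.trace]
  | more i h1 h2 =>
    rw [show X ^ (i + 2) = X * X * X ^ i by rw [← sq, ← pow_add, add_comm], cayley2 X, h.det,
      h.trace, sub_mul, Algebra.smul_mul_assoc, Algebra.smul_mul_assoc, one_mul, ← pow_succ',
      Matrix.trace_sub, Matrix.trace_smul, Matrix.trace_smul, h1, h2, smul_eq_mul, smul_eq_mul]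
    linear_combination (e ^ i * ((q : S) ^ (i + 1) + (q : S))) * h.sign

/-- The identities for the products `X ^ i T`. -/
theorem Signed.line (i j : ℕ) {T' : M2 S} (hT' : Tame X T') :
    (X ^ i * T - (e ^ i * (q : S) ^ i) • 1) * (X ^ j * T' - e ^ j • 1) = 0 ∧
      (X ^ i * T).trace = e ^ i * ((q : S) ^ i + 1) ∧ (X ^ i * T).det = (q : S) ^ i := by
  refine ⟨?_, ?_, by rw [Matrix.det_mul, Matrix.det_pow, h.det, hT.det, mul_one]⟩
  · have hcomm : Commute (X - ((q : S) * e) • 1) (X ^ j) :=
      ((Commute.refl X).sub_left ((Commute.one_left X).smul_left _)).pow_right j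
    have hker : (X - ((q : S) * e) • 1) * (X ^ j * T' - e ^ j • 1) = 0 := by
      have e1 : X ^ j * T' - e ^ j • 1 = X ^ j * (T' - 1) + (X ^ j - (e • 1) ^ j) := by
        rw [mul_sub, mul_one, smul_pow, one_pow]
        abel
      rw [e1, mul_add, ← mul_assoc, hcomm.eq, mul_assoc, h.mul_tame hT', mul_zero, zero_add,
        ← Commute.mul_geom_sum₂ ((Commute.one_right X).smul_right e), ← mul_assoc, h.quad, zero_mul]
    set Y := X ^ j * T' - e ^ j • 1
    rw [sub_mul, mul_assoc, h.tame_fix hT hker, Signed.pow_fix hker, Algebra.smul_mul_assoc,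
      one_mul, ← sub_smul, mul_pow, mul_comm ((q : S) ^ i), sub_self, zero_smul]
  · have e1 : X ^ i * T = X ^ i + ((q : S) * e) ^ i • (T - 1) := by
      rw [← Signed.pow_fix (h.mul_tame hT) i, mul_sub, mul_one]
      abel
    rw [e1, Matrix.trace_add, Matrix.trace_smul, Matrix.trace_sub, h.tame_trace hT,
      Matrix.trace_one, h.trace_pow, Fintype.card_fin]
    simp

end Algebra

variable {q : ℕ} [Fact q.Prime]

/-- `g` is `F ^ i t` modulo `2 ^ n`. -/
def DecompAt (ρ : GQ →* M2 A2) (F : GQ) (n : ℕ) (g : GQ) (i : ℕ) (t : GQ) : Prop :=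
  t ∈ inG q ∧ mapRep (redPow n) ρ g = mapRep (redPow n) ρ F ^ i * mapRep (redPow n) ρ t

theorem exists_decompAt {ρ : GQ →* M2 A2} (hρ : Continuous2 ρ) {F : GQ}
    (hF : (padicPlace q).IsFrobeniusAt F q) (n : ℕ) {g : GQ} (hg : g ∈ decG q) :
    ∃ i t, DecompAt (q := q) ρ F n g i t := by
  obtain ⟨L, hL, h1⟩ := hρ n
  let L' : IntermediateField ℚ QBar := IntermediateField.normalClosure ℚ L QBar
  have : Normal ℚ L' := normalClosure.normal ℚ L QBar
  have : FiniteDimensional ℚ L' := normalClosure.is_finiteDimensional ℚ L QBar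
  obtain ⟨i, h, t, hh, -, ht, rfl⟩ := CFT.Flat.exists_frobenius_decomp (p := q) (φ := F) hF.choose
    (fun x hx => (CFT.Flat.mem_nonunits_iff q).mp
      ((Arith.isFrobeniusAt_iff_forall_mem.mp hF).2 x ((CFT.Flat.mem_place_iff q).mpr hx))) hg L'
  refine ⟨i, t, ht, ?_⟩
  rw [map_mul, map_mul, h1 h fun x hx => (IntermediateField.mem_fixingSubgroup_iff _ _).mp hh x
      (IntermediateField.le_normalClosure L hx), mul_one, map_pow]

theorem decompAt_mono {ρ : GQ →* M2 A2} {F g t : GQ} {i n m : ℕ} (hnm : n ≤ m)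
    (h : DecompAt (q := q) ρ F m g i t) : DecompAt (q := q) ρ F n g i t := by
  have hle : Ideal.span {(2 : A2) ^ m} ≤ Ideal.span {(2 : A2) ^ n} :=
    Ideal.span_singleton_le_span_singleton.mpr (pow_dvd_pow 2 hnm)
  have e : ∀ x : GQ, mapRep (redPow n) ρ x =
      (Ideal.Quotient.factor hle).mapMatrix (mapRep (redPow m) ρ x) := fun x => by
    ext a b
    exact (Ideal.Quotient.factor_mk hle _).symm
  exact ⟨h.1, by rw [e, e, e, ← map_pow, ← map_mul, h.2]⟩

/-- **The line.** -/
theorem exists_lineAt {ρ : GQ →* M2 A2} (hρ : Continuous2 ρ) {F : GQ}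
    (hF : (padicPlace q).IsFrobeniusAt F q) {e : A2}
    (hX : Signed (ρ F) q e) (hI : ∀ t ∈ inG q, Tame (ρ F) (ρ t)) :
    ∃ ε : GQ → A2, LineAt ρ (Selmer.dec q) ε ∧ (∀ t ∈ inG q, ε t = 1) ∧
      (e = 1 → ε = fun _ => 1) := by
  classical
  have hdec : Selmer.dec q = (decG q : Set GQ) := dif_pos (Fact.out : q.Prime)
  -- `ε g` is `e ^ i` for `g ≡ F ^ i t`: `1` if the exponent can be even at every precision
  let ε : GQ → A2 := fun g =>
    if ∀ n, ∃ i t, Even i ∧ DecompAt (q := q) ρ F n g i t then 1 else e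
  have hpow : ∀ i, Even i → e ^ i = 1 := fun i hi => by
    obtain ⟨k, rfl⟩ := hi
    rw [← two_mul, pow_mul, sq, hX.sign, one_pow]
  -- some decomposition of `g` modulo `2 ^ n` has an exponent of that parity
  have key : ∀ g ∈ decG q, ∀ n, ∃ i t, DecompAt (q := q) ρ F n g i t ∧ e ^ i = ε g := by
    intro g hg n
    by_cases hgood : ∀ n, ∃ i t, Even i ∧ DecompAt (q := q) ρ F n g i t
    · obtain ⟨i, t, hi, hd⟩ := hgood n
      exact ⟨i, t, hd, by simp only [ε, if_pos hgood, hpow i hi]⟩
    · obtain ⟨n₀, hn₀⟩ := not_forall.mp hgood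
      obtain ⟨i, t, hd⟩ := exists_decompAt hρ hF (max n n₀) hg
      obtain ⟨k, rfl⟩ : Odd i := Nat.not_even_iff_odd.mp fun hi =>
        hn₀ ⟨i, t, hi, decompAt_mono (le_max_right n n₀) hd⟩
      exact ⟨_, t, decompAt_mono (le_max_left n n₀) hd, by
        simp only [ε, if_neg hgood]
        rw [pow_succ, hpow _ (even_two_mul k), one_mul]⟩
  have sep : ∀ x y : M2 A2, (∀ n, (redPow n).mapMatrix x = (redPow n).mapMatrix y) → x = y := by
    intro x y hxy
    ext a b
    exact congrArg Subtype.val (sub_eq_zero.mp (eq_zero_of_forall_two_pow_dvd fun n =>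
      Ideal.mem_span_singleton.mp (Ideal.Quotient.eq.mp (congrFun (congrFun (hxy n) a) b))))
  refine ⟨ε, ?_, fun t ht => ?_, fun h1 => funext fun g => by simp only [ε, h1, ite_self]⟩
  · rw [hdec]
    refine ⟨fun g hg h hh => sep _ _ fun n => ?_, fun g hg => ?_⟩
    · -- modulo `2 ^ n` both relations are those of `Signed.line` for `F ^ i t` and `F ^ j t'`
      obtain ⟨i, t, ⟨ht, hgd⟩, hεg⟩ := key g hg n
      obtain ⟨j, t', ⟨ht', hhd⟩, hεh⟩ := key h hh n
      obtain ⟨l1, -, l3⟩ := hX.line (hI t ht) i j (hI t' ht')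
      have hdg : redPow n (ρ g).det = redPow n (ρ F ^ i * ρ t).det := by
        rw [RingHom.map_det, RingHom.map_det, map_mul, map_pow]
        exact congrArg Matrix.det hgd
      have e1 : (redPow n).mapMatrix (ρ g - (ε g * (ρ g).det) • 1) =
          (redPow n).mapMatrix (ρ F ^ i * ρ t - (e ^ i * (q : A2) ^ i) • 1) := by
        rw [map_sub, map_sub, show (redPow n).mapMatrix (ρ g) = _ from hgd, map_mul, map_pow]
        refine congrArg₂ (· - ·) rfl ?_
        ext a b
        by_cases hab : a = b <;> simp [hab, ← hεg, ← l3, map_mul, hdg]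
      have e2 : (redPow n).mapMatrix (ρ h - ε h • 1) =
          (redPow n).mapMatrix (ρ F ^ j * ρ t' - e ^ j • 1) := by
        rw [map_sub, map_sub, show (redPow n).mapMatrix (ρ h) = _ from hhd, map_mul, map_pow, hεh]
        rfl
      rw [map_mul, e1, e2, ← map_mul, l1]
    · refine sub_eq_zero.mp (eq_zero_of_forall_two_pow_dvd fun n => ?_)
      obtain ⟨i, t, ⟨ht, hgd⟩, hεg⟩ := key g hg n
      obtain ⟨-, l2, l3⟩ := hX.line (hI t ht) i i (hI t ht)
      have hgd' : mapRep (redPow n) ρ g = (redPow n).mapMatrix (ρ F ^ i * ρ t) := by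
        rw [hgd, map_mul, map_pow]; rfl
      refine Ideal.mem_span_singleton.mp (Ideal.Quotient.eq.mp ?_)
      rw [← trace_mapRep, map_mul, map_add, map_one, ← det_mapRep, hgd',
        ← RingHom.map_det, l3, ← hεg, ← map_one (redPow n), ← map_add, ← map_mul, ← l2]
      exact (AddMonoidHom.map_trace (redPow n).toAddMonoidHom _).symm
  · refine if_pos fun n => ⟨0, t, by simp, ht, ?_⟩
    rw [pow_zero, one_mul]

end Fermat.Agent.LT.Points
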