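import Fermat.Agent.NewformLocal.Toric.Homs
import Fermat.Agent.NewformLocal.Toric.Transfer
import Fermat.Agent.RT.InertiaTW.Atkin

/-!
# The Atkin–Lehner operator at `q` and the two degeneracy operators

The common kernel of the two degeneracy operators is stable under the Fricke conjugation and the
operator of `w_q` is `-U_q` on it.
-/

set_option autoImplicit false

noncomputable section

open CongruenceSubgroup
open Matrix.SpecialLinearGroup (mapGL)
open scoped MatrixGroups

namespace Fermat.Agent.LT.Points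

open GaloisReps (coord atkinHom atkinGL atkinConj atkinGL_mul atkinConj_atkinConj FullHecke)
open LevelRaising (intGL wMat starMat corMat bezQ bezN)
open NewformLocal.Toric (IsDegeneracySystems apply_eq_of_rep)

/-- Intertwined representatives give intertwined operators. -/
theorem atkinHom_apply_intertwine {L R : ℕ} [NeZero L] [NeZero R] {ι : Type} [Fintype ι]
    (C S : Periods.HeckeSystem (Gamma0 L) (Gamma0 R) ι) (π : ι → ι) (d : ι → Gamma0 L)
    (hd : ∀ i, atkinGL L * C.rep i = mapGL ℝ (d i : SL(2, ℤ)) * S.rep (π i) * atkinGL R)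
    {A : Type} [AddCommGroup A] (φ : Additive (Gamma0 L) →+ A) :
    C.apply (atkinHom L A φ) = atkinHom R A (S.apply φ) := by
  have hπ : Function.Injective π := by
    intro i j hij
    have hi := hd i
    rw [hij] at hi
    have hj := hd j
    refine C.unique i j (atkinConj L (d i * (d j)⁻¹)) ?_
    refine mul_left_cancel (a := atkinGL L) ?_
    rw [← mul_assoc (atkinGL L), atkinGL_mul, atkinConj_atkinConj, Subgroup.coe_mul, map_mul,
      mul_assoc (mapGL ℝ (d i : SL(2, ℤ)) * _), hj, hi, InvMemClass.coe_inv, map_inv]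
    group
  refine AddMonoidHom.ext fun x => ?_
  obtain ⟨γ, rfl⟩ := Additive.ofMul.surjective x
  rw [GaloisReps.atkinHom_apply, C.apply_apply, S.apply_apply]
  have key : ∀ i, S.perm (atkinConj R γ) (π i) = π (C.perm γ i) ∧
      S.cocycle (atkinConj R γ) (π i) =
        (d i)⁻¹ * atkinConj L (C.cocycle γ i) * d (C.perm γ i) := by
    intro i
    refine S.eq_of_spec (mul_left_cancel (a := mapGL ℝ (d i : SL(2, ℤ))) ?_)
    refine mul_right_cancel (b := atkinGL R) ?_
    calc mapGL ℝ (d i : SL(2, ℤ)) * (S.rep (π i) * mapGL ℝ (atkinConj R γ : SL(2, ℤ))) * atkinGL R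
        = mapGL ℝ (d i : SL(2, ℤ)) * S.rep (π i) * atkinGL R * mapGL ℝ (γ : SL(2, ℤ)) := by
          simp only [mul_assoc, atkinGL_mul]
      _ = atkinGL L * (C.rep i * mapGL ℝ (γ : SL(2, ℤ))) := by rw [← hd, mul_assoc]
      _ = atkinGL L * mapGL ℝ (C.cocycle γ i : SL(2, ℤ)) * C.rep (C.perm γ i) := by
          rw [C.spec, mul_assoc]
      _ = mapGL ℝ (atkinConj L (C.cocycle γ i) : SL(2, ℤ)) *
            (mapGL ℝ (d (C.perm γ i) : SL(2, ℤ)) * S.rep (π (C.perm γ i)) * atkinGL R) := by
          rw [atkinGL_mul, mul_assoc, hd]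
      _ = _ := by
          simp only [Subgroup.coe_mul, InvMemClass.coe_inv, map_mul, map_inv, mul_assoc,
            mul_inv_cancel_left]
  rw [← ((Finite.injective_iff_bijective).mp hπ).sum_comp fun i =>
    φ (Additive.ofMul (S.cocycle (atkinConj R γ) i))]
  simp only [(key _).2, ofMul_mul, ofMul_inv, map_add, map_neg, Finset.sum_add_distrib,
    GaloisReps.atkinHom_apply, Finset.sum_neg_distrib,
    (C.perm_bijective γ).sum_comp fun i => φ (Additive.ofMul (d i))]
  abel

variable {q M L : ℕ} [hq : Fact q.Prime] [NeZero M] [NeZero L]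

omit [NeZero M] in
/-- The Atkin–Lehner system at `q` commutes with the Fricke conjugation. -/
theorem atkinHom_wSystem (h : LevelRaising.RaiseData q M) (hL : L = M * q)
    (W : Periods.HeckeSystem (Gamma0 L) (Gamma0 L) Unit) (hW : W.rep () = intGL (wMat q M))
    {A : Type} [AddCommGroup A] (φ : Additive (Gamma0 L) →+ A) :
    atkinHom L A (W.apply φ) = W.apply (atkinHom L A φ) := by
  subst hL
  have hb : bezQ q M * q + bezN q M * M = 1 := h.bez
  have hd : ((q : ℤ) + M) * ((M : ℤ) * bezN q M ^ 2 + (q : ℤ) * bezQ q M ^ 2) -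
      (bezN q M - bezQ q M) * (((M * q : ℕ) : ℤ) * (bezN q M - bezQ q M)) = 1 := by
    push_cast
    linear_combination (bezQ q M * q + bezN q M * M + 1) * hb
  refine RT.InertiaTW.atkinHom_apply_comm W id
    (fun _ => GaloisReps.mkGamma0 (M * q) ((q : ℤ) + M) (bezN q M - bezQ q M)
      (((M * q : ℕ) : ℤ) * (bezN q M - bezQ q M))
      ((M : ℤ) * bezN q M ^ 2 + (q : ℤ) * bezQ q M ^ 2)
      hd (dvd_mul_right _ _)) (fun i => ?_) φ
  have hb' : (bezQ q M : ℝ) * q + (bezN q M : ℝ) * M = 1 := by exact_mod_cast hb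
  have hdet : (wMat q M).det ≠ 0 := by rw [h.det_wMat]; exact_mod_cast hq.out.ne_zero
  rw [Subsingleton.elim i (), id_eq, hW]
  apply Units.ext
  rw [Units.val_mul, Units.val_mul, Units.val_mul, LevelRaising.intGL_val hdet,
    GaloisReps.coe_atkinGL]
  ext a b
  fin_cases a <;> fin_cases b <;>
    simp [GaloisReps.coe_mkGamma0, wMat, Matrix.mul_apply, Fin.sum_univ_two] <;>
    first
      | ring1
      | linear_combination hb'
      | linear_combination -hb'
      | linear_combination (q : ℝ) * hb'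
      | linear_combination -(q : ℝ) * hb'
      | linear_combination (M : ℝ) * q * hb'
      | linear_combination -(M : ℝ) * q * hb'
      | linear_combination (M : ℝ) * q ^ 2 * (bezQ q M : ℝ) * hb'
      | linear_combination -(M : ℝ) * q ^ 2 * (bezQ q M : ℝ) * hb'
      | linear_combination (M : ℝ) * q * (bezN q M : ℝ) * hb'

omit hq in
/-- The corestriction of a Fricke conjugate is the conjugate of the second degeneracy operator. -/
theorem cor_atkinHom (h : LevelRaising.RaiseData q M) (hL : L = M * q)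
    (C S : Periods.HeckeSystem (Gamma0 L) (Gamma0 M) (Option (Fin q)))
    (hC : ∀ i, C.rep i = intGL (corMat q M i)) (hS : ∀ i, S.rep i = intGL (starMat q M i))
    {A : Type} [AddCommGroup A] (φ : Additive (Gamma0 L) →+ A) :
    C.apply (atkinHom L A φ) = atkinHom M A (S.apply φ) := by
  subst hL
  have hq0 : (q : ℤ) ≠ 0 := h.ne_zero
  have key : ∀ i, ∃ (d : Gamma0 (M * q)) (j : Option (Fin q)),
      atkinGL (M * q) * C.rep i = mapGL ℝ (d : SL(2, ℤ)) * S.rep j * atkinGL M := by
    intro i
    obtain ⟨c, hc⟩ : (M : ℤ) ∣ corMat q M i 1 0 := by rcases i with _ | x <;> simp [corMat]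
    set P : Matrix (Fin 2) (Fin 2) ℤ := !![corMat q M i 1 1, -c;
      -((M : ℤ) * q * corMat q M i 0 1), (q : ℤ) * corMat q M i 0 0] with hP
    have hdet : P.det = q := by
      have e := h.det_corMat i
      rw [Matrix.det_fin_two] at e
      rw [hP, Matrix.det_fin_two_of]
      linear_combination (q : ℤ) * e + (q : ℤ) * corMat q M i 0 1 * hc
    obtain ⟨d, j, hdj⟩ := h.exists_starMat hdet
      ⟨-((q : ℤ) * corMat q M i 0 1), by simp [hP]; ring⟩
      ⟨-((M : ℤ) * corMat q M i 0 1), by simp [hP]; ring⟩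
      ⟨corMat q M i 0 0, by simp [hP]⟩
    refine ⟨d, j, ?_⟩
    rw [hS, ← hdj, hC]
    have hPne : P.det ≠ 0 := by rw [hdet]; exact hq0
    apply Units.ext
    rw [Units.val_mul, Units.val_mul, LevelRaising.intGL_val hPne,
      LevelRaising.intGL_val (by rw [h.det_corMat]; exact one_ne_zero), GaloisReps.coe_atkinGL,
      GaloisReps.coe_atkinGL]
    have hc' : (corMat q M i 1 0 : ℝ) = (M : ℝ) * c := by exact_mod_cast hc
    ext a b
    fin_cases a <;> fin_cases b <;>
      simp [hP, Matrix.mul_apply, Fin.sum_univ_two, hc'] <;> ring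
  choose d π hd using key
  exact atkinHom_apply_intertwine C S π d hd φ

omit hq in
/-- The common kernel is stable under the Fricke conjugation. -/
theorem kernel_atkinHom [Fact q.Prime] (h : LevelRaising.RaiseData q M) (hL : L = M * q)
    {C S : Periods.HeckeSystem (Gamma0 L) (Gamma0 M) (Option (Fin q))}
    {W : Periods.HeckeSystem (Gamma0 L) (Gamma0 L) Unit} (hS : IsDegeneracySystems q M L C S W)
    {A : Type} [AddCommGroup A] {φ : Additive (Gamma0 L) →+ A}
    (h1 : C.apply φ = 0) (h2 : S.apply φ = 0) :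
    C.apply (atkinHom L A φ) = 0 ∧ S.apply (atkinHom L A φ) = 0 := by
  refine ⟨by rw [cor_atkinHom h hL C S hS.cor_rep hS.star_rep, h2, map_zero], ?_⟩
  rw [← hS.cor_w, ← atkinHom_wSystem h hL W hS.w_rep,
    cor_atkinHom h hL C S hS.cor_rep hS.star_rep]
  subst hL
  have hW' : ∀ φ' : Additive (Gamma0 (M * q)) →+ A, W.apply φ' = h.wSys.apply φ' := fun φ' =>
    apply_eq_of_rep W h.wSys (fun _ => hS.w_rep) φ'
  have e : S.apply (W.apply φ) = C.apply φ := by
    rw [← hS.cor_w, hW' φ, hW', h.w_w]
  rw [e, h1, map_zero]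

omit [NeZero M] hq in
/-- On the kernel of the second degeneracy operator `w_q` is `-U_q`. -/
theorem wSystem_apply_eq (h : LevelRaising.RaiseData q M) (hL : L = M * q)
    {C S : Periods.HeckeSystem (Gamma0 L) (Gamma0 M) (Option (Fin q))}
    {W : Periods.HeckeSystem (Gamma0 L) (Gamma0 L) Unit} (hS : IsDegeneracySystems q M L C S W)
    {B : Type} [AddCommGroup B] {φ : Additive (Gamma0 L) →+ B} (h2 : S.apply φ = 0) :
    W.apply φ = -GaloisReps.homOp L B q h.prime φ := by
  subst hL
  have e := h.res_star ℤ φ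
  have h0 : (LevelRaising.RaiseData.resSys q M).apply (0 : Additive (Gamma0 M) →+ B) = 0 :=
    ((LevelRaising.RaiseData.resSys q M).op ℕ).map_zero
  rw [← apply_eq_of_rep S h.starSys (fun i => hS.star_rep i) φ, h2, h0] at e
  rw [apply_eq_of_rep W h.wSys (fun i => hS.w_rep) φ, GaloisReps.homOp,
    dif_pos (dvd_mul_left q M)]
  exact eq_neg_of_add_eq_zero_right e.symm

/-- An element of the Hecke algebra moves everything into the kernel of the degeneracy
operators. -/
def IsKilling (q M : ℕ) {L : ℕ} [NeZero L] (t : FullHecke L) : Prop :=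
  ∀ (C S : Periods.HeckeSystem (Gamma0 L) (Gamma0 M) (Option (Fin q)))
    (W : Periods.HeckeSystem (Gamma0 L) (Gamma0 L) Unit), IsDegeneracySystems q M L C S W →
    ∀ φ ∈ Gamma0.ellParHoms (Gamma0 L) ℤ, ∀ c : Fin (2 * Gamma0.genus L) → ℤ,
      coord L ℤ φ = (GaloisReps.latticeMat L t).mulVec c → C.apply φ = 0 ∧ S.apply φ = 0

omit hq [NeZero M] in
/-- The same with any coefficients. -/
theorem IsKilling.apply_eq_zero {t : FullHecke L} (ht : IsKilling q M t)
    {C S : Periods.HeckeSystem (Gamma0 L) (Gamma0 M) (Option (Fin q))}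
    {W : Periods.HeckeSystem (Gamma0 L) (Gamma0 L) Unit} (hS : IsDegeneracySystems q M L C S W)
    {B : Type} [CommRing B] {φ : Additive (Gamma0 L) →+ B}
    (hφ : φ ∈ Gamma0.ellParHoms (Gamma0 L) B) (c : Fin (2 * Gamma0.genus L) → B)
    (hc : coord L B φ = ((GaloisReps.latticeMat L t).map (Int.castRingHom B)).mulVec c) :
    C.apply φ = 0 ∧ S.apply φ = 0 := by
  classical
  set T := GaloisReps.latticeMat L t with hT
  obtain ⟨ψ, hψmem, hψc, eφ⟩ := NewformLocal.Toric.exists_lattice_decomposition hφ T c hc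
  have hkill : ∀ j, C.apply (ψ j) = 0 ∧ S.apply (ψ j) = 0 := fun j =>
    ht C S W hS (ψ j) (hψmem j) (Pi.single j 1) (funext fun i => by
      rw [hψc, Matrix.mulVec_single_one, Matrix.col_apply])
  constructor
  · rw [eφ, ← Periods.HeckeSystem.op_apply (S := C) ℤ, map_sum]
    refine Finset.sum_eq_zero fun j _ => ?_
    rw [Periods.HeckeSystem.op_apply, Periods.HeckeSystem.apply_comp, (hkill j).1,
      AddMonoidHom.comp_zero]
  · rw [eφ, ← Periods.HeckeSystem.op_apply (S := S) ℤ, map_sum]
    refine Finset.sum_eq_zero fun j _ => ?_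
    rw [Periods.HeckeSystem.op_apply, Periods.HeckeSystem.apply_comp, (hkill j).2,
      AddMonoidHom.comp_zero]

end Fermat.Agent.LT.Points
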