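import Fermat.Agent.GaloisReps.Models
import Fermat.Agent.GaloisReps.CoeffExt
import Fermat.Agent.GaloisReps.Rep
import Fermat.Prelude.Def_GaloisRep_CompletionBridge

/-!
# The `2`-adic representation of a character of the Hecke algebra

A character `χ` of the Hecke algebra of level `N` and an embedding `e` of its values in an
algebraic closure of `ℚ₂` give a representation in matrices over the valuation ring.
-/

set_option autoImplicit false

noncomputable section

open Polynomial

namespace Fermat.Agent.LT.Points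

open GaloisReps (AbsGal FullHecke HeckeGaloisModel modelOfCongruence eichlerShimuraCongruence)

/-- An algebraic closure of `ℚ₂`. -/
abbrev K2 : Type := PadicAlgCl 2

/-- Its valuation ring. -/
abbrev A2 : ValuationSubring K2 := padicIntegers 2

/-- The equivalence with the algebraic closure of the fraction field of `ℤ₂`. -/
def toK2 : AlgebraicClosure (FractionRing ℤ_[2]) ≃+* K2 :=
  IsAlgClosure.equivOfEquiv (AlgebraicClosure (FractionRing ℤ_[2])) K2
    (FractionRing.algEquiv ℤ_[2] ℚ_[2]).toRingEquiv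

theorem toK2_algebraMap (x : ℤ_[2]) :
    toK2 (algebraMap ℤ_[2] (AlgebraicClosure (FractionRing ℤ_[2])) x) =
      algebraMap ℚ_[2] K2 (x : ℚ_[2]) := by
  rw [IsScalarTower.algebraMap_apply ℤ_[2] (FractionRing ℤ_[2]) (AlgebraicClosure _)]
  show IsAlgClosure.equivOfEquiv (AlgebraicClosure (FractionRing ℤ_[2])) K2
    (FractionRing.algEquiv ℤ_[2] ℚ_[2]).toRingEquiv _ = _
  rw [IsAlgClosure.equivOfEquiv_algebraMap]
  exact congrArg (algebraMap ℚ_[2] K2) ((FractionRing.algEquiv ℤ_[2] ℚ_[2]).commutes x)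

/-- The equivalence with `K2` sends integral elements into the valuation ring. -/
theorem toK2_mem {y : AlgebraicClosure (FractionRing ℤ_[2])} (hy : IsIntegral ℤ_[2] y) :
    toK2 y ∈ A2 := by
  obtain ⟨P, hP, h0⟩ := hy
  have hA : ∀ x : ℤ_[2],
      (toK2.toRingHom.comp (algebraMap ℤ_[2] (AlgebraicClosure (FractionRing ℤ_[2])))) x ∈ A2 :=
    fun x => by
      rw [mem_padicIntegers_iff, RingHom.comp_apply]
      show ‖toK2 _‖₊ ≤ 1
      rw [toK2_algebraMap, ← NNReal.coe_le_coe, coe_nnnorm, NNReal.coe_one]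
      exact (PadicAlgCl.norm_extends 2 _).le.trans x.2
  let f := (toK2.toRingHom.comp
    (algebraMap ℤ_[2] (AlgebraicClosure (FractionRing ℤ_[2])))).codRestrict
    A2.toSubring hA
  have h1 : IsIntegral A2 (toK2 y) := ⟨P.map f, hP.map _, by
    rw [eval₂_map]
    show eval₂ (toK2.toRingHom.comp (algebraMap ℤ_[2] _)) (toK2.toRingHom y) P = 0
    rw [← hom_eval₂, h0, map_zero]⟩
  obtain ⟨z, hz⟩ := IsIntegrallyClosed.isIntegral_iff.mp h1
  exact hz ▸ z.2

/-- A realisation of a character over a coefficient ring. -/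
structure CharModel (N : ℕ) [NeZero N] (χ : FullHecke N →+* ℂ) (e : χ.range →+* K2) where
  O : Type
  [commRing : CommRing O]
  [isDomain : IsDomain O]
  [isDVR : IsDiscreteValuationRing O]
  [charZero : CharZero O]
  two_mem : ((2 : ℕ) : O) ∈ IsLocalRing.maximalIdeal O
  ι : ℤ_[2] →+* O
  θ : FullHecke N →+* O
  j : O →+* A2
  j_injective : Function.Injective j
  j_θ : ∀ x, (j (θ x) : K2) = e (χ.rangeRestrict x)

attribute [instance] CharModel.commRing CharModel.isDomain CharModel.isDVR CharModel.charZero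

/-- The model of the Jacobian of level `N`. -/
abbrev model (N : ℕ) [NeZero N] : HeckeGaloisModel N 2 :=
  modelOfCongruence (eichlerShimuraCongruence N 2)

/-- Every character is realised. -/
theorem exists_charModel (N : ℕ) [NeZero N] (χ : FullHecke N →+* ℂ) (e : χ.range →+* K2) :
    Nonempty (CharModel N χ e) := by
  have : Module.Finite ℤ (FullHecke N) := IntegralStructure.heckeAlgebra_finite N 2 ∅
  have : Finite (IsLocalRing.ResidueField ℤ_[2]) :=
    Finite.of_equiv _ (PadicInt.residueField (p := 2)).symm.toEquiv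
  obtain ⟨O, i1, i2, i3, -, -, i6, i7, i8, i9, j, θO, -, hj, hcomm, hθO⟩ :=
    GaloisReps.exists_coeffExt ℤ_[2] (toK2.symm.toRingHom.comp (e.comp χ.rangeRestrict))
  have hjA : ∀ y : O, (toK2.toRingHom.comp j) y ∈ A2 := fun y => toK2_mem <| by
    obtain ⟨P, hP, h0⟩ := Algebra.IsIntegral.isIntegral (R := ℤ_[2]) y
    exact ⟨P, hP, by rw [← hcomm, ← hom_eval₂, h0, map_zero]⟩
  have h2 : ((2 : ℕ) : O) ∈ IsLocalRing.maximalIdeal O := by
    rw [← map_natCast (algebraMap ℤ_[2] O) 2]
    exact map_nonunit (algebraMap ℤ_[2] O) _ (by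
      rw [PadicInt.maximalIdeal_eq_span_p]; exact Ideal.mem_span_singleton_self _)
  exact ⟨{ O := O, two_mem := h2, ι := algebraMap ℤ_[2] O, θ := θO,
           j := (toK2.toRingHom.comp j).codRestrict A2.toSubring hjA,
           j_injective := fun a b h => hj (toK2.injective (congrArg Subtype.val h)),
           j_θ := fun x => by
            show toK2 (j (θO x)) = _
            rw [← RingHom.comp_apply j, hθO]
            exact toK2.apply_symm_apply _ }⟩

namespace CharModel

variable {N : ℕ} [NeZero N] {χ : FullHecke N →+* ℂ} {e : χ.range →+* K2} (C : CharModel N χ e)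

theorem e_injective {N : ℕ} [NeZero N] {χ : FullHecke N →+* ℂ} (e : χ.range →+* K2) :
    Function.Injective e := by
  have : Module.Finite ℤ (FullHecke N) := IntegralStructure.heckeAlgebra_finite N 2 ∅
  have : Module.Finite ℤ χ.range := Module.Finite.of_surjective
    χ.rangeRestrict.toAddMonoidHom.toIntLinearMap χ.rangeRestrict_surjective
  rw [RingHom.injective_iff_ker_eq_bot]
  refine Ideal.eq_bot_of_comap_eq_bot (R := ℤ) ?_
  rw [RingHom.comap_ker, RingHom.ext_int (e.comp (algebraMap ℤ _)) (Int.castRingHom K2),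
    ← RingHom.injective_iff_ker_eq_bot]
  exact Int.cast_injective

/-- The integral model of a character has the kernel of the character. -/
theorem θ_eq_zero_iff (x : FullHecke N) : C.θ x = 0 ↔ χ x = 0 := by
  rw [← map_eq_zero_iff C.j C.j_injective, ← ZeroMemClass.coe_eq_zero, C.j_θ,
    map_eq_zero_iff e (e_injective e)]
  exact Subtype.ext_iff

/-- The representation over the coefficient ring. -/
def repO : AbsGal →* Matrix (Fin 2) (Fin 2) C.O :=
  (LinearMap.toMatrixAlgEquiv ((model N).eigenBasis C.θ)).toAlgHom.toRingHom.toMonoidHom.comp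
    ((model N).eigenAction C.ι C.θ)

/-- **The representation.** -/
def rep : AbsGal →* Matrix (Fin 2) (Fin 2) A2 :=
  C.j.mapMatrix.toMonoidHom.comp C.repO

theorem rep_apply (σ : AbsGal) : C.rep σ = (C.repO σ).map C.j := rfl

theorem det_rep (σ : AbsGal) :
    (C.rep σ).det = C.j (LinearMap.det ((model N).eigenAction C.ι C.θ σ)) := by
  rw [← LinearMap.det_toMatrix ((model N).eigenBasis C.θ)]
  exact (RingHom.map_det C.j _).symm

theorem trace_rep (σ : AbsGal) : (C.rep σ).trace = C.j (C.repO σ).trace :=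
  (AddMonoidHom.map_trace C.j.toAddMonoidHom _).symm

/-- The Frobenius elements at the good primes. -/
theorem frobenius {ℓ : ℕ} (hℓ : ℓ.Prime) (hℓN : ¬ ℓ ∣ N) (hℓ2 : ℓ ≠ 2)
    {B : ValuationSubring (AlgebraicClosure ℚ)} (hB : B.LiesOverPrime ℓ) {σ : AbsGal}
    (hσ : B.IsFrobeniusAt σ ℓ) :
    ((C.rep σ).trace : K2) = e (χ.rangeRestrict (HeckeDuality.heckeOp N 2 ℓ hℓ)) ∧
      (C.rep σ).det = (ℓ : A2) := by
  have hN : ¬ ℓ ∣ N * 2 := fun h => (hℓ.dvd_mul.mp h).elim hℓN fun h' =>
    hℓ2 ((Nat.prime_dvd_prime_iff_eq hℓ Nat.prime_two).mp h')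
  have hc := (model N).charpoly_eigenAction_frobenius C.ι C.θ C.two_mem hℓ hN hB hσ
  rw [← LinearMap.charpoly_toMatrix _ ((model N).eigenBasis C.θ), Matrix.charpoly_fin_two] at hc
  have h1 := congrArg (fun q => q.coeff 1) hc
  have h0 := congrArg (fun q => q.coeff 0) hc
  simp only [coeff_add, coeff_sub, coeff_X_pow, coeff_C_mul, coeff_X, coeff_C] at h1 h0
  norm_num at h1 h0
  constructor
  · rw [trace_rep, ← C.j_θ, ← h1]
    rfl
  · rw [det_rep, h0, map_natCast]

theorem rep_unramified {ℓ : ℕ} (hℓ : ℓ.Prime) (hℓN : ¬ ℓ ∣ N) (hℓ2 : ℓ ≠ 2)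
    {B : ValuationSubring (AlgebraicClosure ℚ)} (hB : B.LiesOverPrime ℓ) {σ : AbsGal}
    (hσ : σ ∈ B.inertiaSubgroupIn ℚ) : C.rep σ = 1 := by
  have hN : ¬ ℓ ∣ N * 2 := fun h => (hℓ.dvd_mul.mp h).elim hℓN fun h' =>
    hℓ2 ((Nat.prime_dvd_prime_iff_eq hℓ Nat.prime_two).mp h')
  have h : (model N).eigenAction C.ι C.θ σ = 1 :=
    (model N).rep_isUnramifiedAt C.ι C.θ C.two_mem hℓ hN B hB σ hσ
  show C.j.mapMatrix (LinearMap.toMatrixAlgEquiv ((model N).eigenBasis C.θ) _) = 1
  rw [h, map_one, map_one]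

/-- Modulo `2 ^ n` the representation factors through a finite extension. -/
theorem rep_continuous (n : ℕ) : ∃ K : IntermediateField ℚ (AlgebraicClosure ℚ),
    FiniteDimensional ℚ K ∧ ∀ σ : AbsGal, (∀ x ∈ K, σ x = x) →
      ∀ i k, (2 : A2) ^ n ∣ C.rep σ i k - (1 : Matrix (Fin 2) (Fin 2) A2) i k := by
  obtain ⟨K, hK, h⟩ := (model N).gal_continuous n
  refine ⟨K, hK, fun σ hσ i k => ?_⟩
  have h1 := map_dvd C.j ((model N).eigenMatrix_congr C.ι C.θ (g := 1) (h := σ)
    (by rw [inv_one, one_mul]; exact h σ hσ) i k)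
  have e1 : ∀ τ, (model N).eigenMatrix C.ι C.θ τ = C.repO τ := fun _ => rfl
  rw [map_pow, map_natCast, map_sub, Nat.cast_ofNat, e1, e1, map_one C.repO] at h1
  rw [rep_apply, Matrix.map_apply]
  convert h1 using 2
  by_cases hik : i = k <;> simp [Matrix.one_apply, hik]

/-- The determinant is the cyclotomic character. -/
theorem det_rep_congr {σ : AbsGal} {m n : ℕ}
    (hσ : ∀ ζ : AlgebraicClosure ℚ, ζ ^ (2 ^ n) = 1 → σ ζ = ζ ^ m) :
    (2 : A2) ^ n ∣ (C.rep σ).det - (m : A2) := by
  have h := map_dvd C.j ((model N).det_eigenAction_congr C.ι C.θ C.two_mem hσ)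
  rwa [map_pow, map_natCast, map_sub, map_natCast, Nat.cast_ofNat, ← det_rep] at h

end CharModel

end Fermat.Agent.LT.Points
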