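import Fermat.Agent.LT.Points.Toric
import Fermat.Agent.LT.Points.Degeneracy
import Fermat.Agent.LT.Points.Lines

/-!
# The signed relation at the points which are new at `q`
-/

set_option autoImplicit false

noncomputable section

namespace Fermat.Agent.LT.Points

open Fermat.Agent.Arith (QBar GQ)
open GaloisReps (FullHecke matIn modelOfCongruence eichlerShimuraCongruence)
open HeckeDuality (heckeOp)
open LT.Deform (M2)
open CFT.Flat (inG)

variable {L : ℕ} [NeZero L] {χ : FullHecke L →+* ℂ} {e : χ.range →+* K2} (C : CharModel L χ e)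

/-- A relation on the model gives one on the representation, after removing a scalar. -/
theorem CharModel.rel_repO {X : Matrix (Fin (model L).d) (Fin (model L).d) ℤ_[2]}
    {t : FullHecke L} (hX : X * matIn (model L).hecke ℤ_[2] t = 0) (ht : C.θ t ≠ 0)
    (P : Module.End C.O (GaloisReps.eigenspace (model L).hecke C.θ))
    (hP : ∀ v, (P v : Fin (model L).d → C.O) = (X.map C.ι).mulVec v.1) :
    P = 0 := by
  refine LinearMap.ext fun v => Subtype.ext ?_
  have h := congrArg (fun Y => (C.ι.mapMatrix Y).mulVec v.1) hX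
  simp only [map_zero, map_mul, Matrix.zero_mulVec, ← Matrix.mulVec_mulVec,
    RingHom.mapMatrix_apply] at h
  rw [(model L).matIn_map, (GaloisReps.mem_eigenspace (model L).hecke C.θ _).1 v.2 t,
    Matrix.mulVec_smul, smul_eq_zero] at h
  rw [hP, h.resolve_left ht]
  rfl

variable {q : ℕ} [hq : Fact q.Prime]

theorem det_rep_inertia (hq2 : q ≠ 2) {τ : GQ} (hτ : τ ∈ inG q) : (C.rep τ).det = 1 := by
  rw [C.det_rep, (model L).det_eigenAction_of_roots C.ι C.θ C.two_mem (q := 1) fun n ζ hζ => by
    rw [pow_one]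
    exact Arith.inertia_root (CFT.Local.padicPlace_liesOverPrime q) hq.out hτ hζ fun h => hq2
      ((Nat.prime_dvd_prime_iff_eq hq.out Nat.prime_two).1 (hq.out.dvd_of_dvd_pow h)),
    Nat.cast_one, map_one]

theorem det_rep_frobenius (hq2 : q ≠ 2) {B : ValuationSubring QBar} (hB : B.LiesOverPrime q)
    {σ : GQ} (hσ : B.IsFrobeniusAt σ q) : (C.rep σ).det = (q : A2) := by
  rw [C.det_rep, (model L).det_eigenAction_of_roots C.ι C.θ C.two_mem (q := q) fun n ζ hζ =>
    Arith.frobenius_root hB hq.out hσ hζ fun h => hq2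
      ((Nat.prime_dvd_prime_iff_eq hq.out Nat.prime_two).1 (hq.out.dvd_of_dvd_pow h)),
    map_natCast]

theorem signed_mk {X : M2 A2} {ε : A2} (hdet : X.det = (q : A2))
    (hrel : (X - ((q : A2) * ε) • 1) * (X * X - 1) = 0) (hε : ε * ε = 1) : Signed X q ε := by
  refine ⟨hrel, hdet, hε, Nat.cast_ne_zero.mpr hq.out.ne_zero,
    sub_ne_zero.mpr (by exact_mod_cast hq.out.ne_one), ?_⟩
  exact mul_ne_zero two_ne_zero (by exact_mod_cast (Nat.succ_ne_zero q))

/-- **The signed relation.** -/
theorem CharModel.signed_of_killing {M : ℕ} [NeZero M] (h : LevelRaising.RaiseData q M)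
    (hL : L = M * q) (hq2 : q ≠ 2) {t : FullHecke L} (ht : IsKilling q M t) (hχ : χ t ≠ 0)
    {F : GQ} (hF : (padicPlace q).IsFrobeniusAt F q) :
    Signed (C.rep F) q (C.j (C.θ (heckeOp L 2 q hq.out))) ∧
      ∀ τ ∈ inG q, Tame (C.rep F) (C.rep τ) := by
  have hθt : C.θ t ≠ 0 := fun h0 => hχ ((C.θ_eq_zero_iff t).mp h0)
  have hqM : ¬ q ^ 2 ∣ L := fun hd => h.not_dvd (by
    rw [hL, pow_two, Nat.mul_dvd_mul_iff_right hq.out.pos] at hd
    exact hd)
  obtain ⟨h1, h2⟩ := (signedToricAt hq.out hq2 (hL ▸ dvd_mul_left q M) hqM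
    (eichlerShimuraCongruence L 2)) M hL.symm t ht (padicPlace q)
      (CFT.Local.padicPlace_liesOverPrime q) F hF
  -- on the eigenspace `t` is a nonzero scalar, so the two relations of the model hold there
  set U := heckeOp L 2 q hq.out
  set X := (model L).eigenAction C.ι C.θ F
  have hX1 : (X - ((q : C.O) * C.θ U) • 1) * (X * X - 1) = 0 := by
    refine C.rel_repO h1 hθt _ fun v => ?_
    simp only [X, Module.End.mul_apply, LinearMap.sub_apply, LinearMap.smul_apply,
      Module.End.one_apply, AddSubgroupClass.coe_sub, SetLike.val_smul,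
      GaloisReps.HeckeGaloisModel.coe_eigenAction]
    rw [← RingHom.mapMatrix_apply, ← RingHom.mapMatrix_apply, map_mul, map_sub, map_sub, map_mul,
      map_one, show C.ι.mapMatrix ((q : ℤ_[2]) • matIn (model L).hecke ℤ_[2] U) =
        (q : C.O) • matIn (model L).hecke C.O U by
      rw [← (model L).matIn_map C.ι U, Nat.cast_smul_eq_nsmul, map_nsmul, Nat.cast_smul_eq_nsmul]
      rfl]
    simp only [← Matrix.mulVec_mulVec, Matrix.sub_mulVec, Matrix.smul_mulVec, Matrix.one_mulVec,
      Matrix.mulVec_sub, RingHom.mapMatrix_apply]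
    rw [(GaloisReps.mem_eigenspace (model L).hecke C.θ _).1 v.2 U]
    have hv := ((model L).eigenAction C.ι C.θ F ((model L).eigenAction C.ι C.θ F v)).2
    rw [GaloisReps.mem_eigenspace] at hv
    have hv' := hv U
    simp only [GaloisReps.HeckeGaloisModel.coe_eigenAction] at hv'
    rw [hv']
    simp only [mul_smul, smul_sub]
    abel
  have hXT : ∀ τ ∈ inG q, ((model L).eigenAction C.ι C.θ τ - 1) * (X * X - 1) = 0 := fun τ hτ => by
    refine C.rel_repO (h2 τ hτ) hθt _ fun v => ?_
    simp only [X, Module.End.mul_apply, LinearMap.sub_apply, Module.End.one_apply,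
      AddSubgroupClass.coe_sub, GaloisReps.HeckeGaloisModel.coe_eigenAction]
    simp only [← RingHom.mapMatrix_apply, map_mul, map_sub, map_one, ← Matrix.mulVec_mulVec,
      Matrix.sub_mulVec, Matrix.one_mulVec, Matrix.mulVec_sub]
    abel
  -- `Φ` carries them to matrices over `A2`, and the sign squares to one on the killed part
  let Φ : Module.End C.O (GaloisReps.eigenspace (model L).hecke C.θ) →+* M2 A2 :=
    C.j.mapMatrix.comp
      (LinearMap.toMatrixAlgEquiv ((model L).eigenBasis C.θ)).toAlgHom.toRingHom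
  have hΦs : ∀ c : C.O, Φ (c • 1) = C.j c • (1 : M2 A2) := fun c => by
    show C.j.mapMatrix (LinearMap.toMatrixAlgEquiv _ (c • 1)) = _
    rw [map_smul, map_one]
    ext a b
    by_cases hab : a = b <;> simp [hab]
  have hsub : ∀ a b, Φ (a - b) = Φ a - Φ b := fun a b => by
    rw [eq_sub_iff_add_eq, ← map_add]
    exact congrArg Φ (LinearMap.ext fun v => sub_add_cancel (a v) (b v))
  have hsq : C.θ U * C.θ U = 1 := by
    have := congrArg C.θ (ht.sq h hL)
    rw [map_mul, map_mul] at this
    exact mul_right_cancel₀ hθt (this.trans (one_mul _).symm)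
  refine ⟨signed_mk (det_rep_frobenius C hq2 (CFT.Local.padicPlace_liesOverPrime q) hF) ?_
    (by rw [← map_mul, hsq, map_one]), fun τ hτ => ⟨?_, det_rep_inertia C hq2 hτ⟩⟩
  · have e1 := congrArg Φ hX1
    rw [map_mul, hsub, hsub, map_mul, map_zero, map_one, hΦs] at e1
    rw [map_mul, map_natCast] at e1
    exact e1
  · have e1 := congrArg Φ (hXT τ hτ)
    rw [map_mul, hsub, hsub, map_mul, map_zero, map_one] at e1
    exact e1

end Fermat.Agent.LT.Points
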