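import Fermat.Agent.NewformLocal.Toric.Model
import Fermat.Agent.LT.Points.Monodromy

/-!
# The signed toric law at a prime exactly dividing the level

On the image of an operator killing the forms of level `M`, `(σ ^ 2 - 1) x` is fixed by inertia and
a Frobenius element `σ` at `q` acts on it as `q U_q`.
-/

set_option autoImplicit false

noncomputable section

open CongruenceSubgroup AlgebraicCurve ModularCurve

namespace Fermat.Agent.LT.Points

open GaloisReps (coord matIn FullHecke atkinHom modelOfCongruence galTors HeckeGaloisModel JTors)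
open NewformLocal.Toric (normUp)
open JacTorsion (toTorsion divQuot divGrp)
open Semistable
open Arith (QBar GQ)

/-- Shortcut: the search is slow. -/
local instance (priority := 30000) algebraFB (N : ℕ) : Algebra QBar (FB N) := inferInstance

/-- Shortcut: the search is slow. -/
local instance (priority := 30000) jTorsHomClass (N p n : ℕ) [NeZero N] [Fact p.Prime] :
    AddMonoidHomClass (JTors N p n ≃+ (Fin (2 * Gamma0.genus N) → ZMod (p ^ n))) (JTors N p n)
      (Fin (2 * Gamma0.genus N) → ZMod (p ^ n)) := inferInstance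

variable {A : ValuationSubring QBar} {q M : ℕ} [hq : Fact q.Prime] [NeZero M]

variable [CharP (Res A) q] [FF.IsFunctionField (Res A) (KM A M)]

/-- The class of a divisor with a Kummer function with constant reductions is fixed by inertia. -/
theorem inertia_fix_principal {h : Setup A M q} {τ : GQ} (hτ : τ ∈ A.inertiaSubgroupIn ℚ)
    {D : Divisor QBar (FB (q * M))} {m : ℕ} (hm : m ≠ 0) (hmq : ¬ q ∣ m) {a : Fin 2 → Res A}
    (hk : HasKummer h D m a) :
    galD τ D - D ∈ Divisor.principal (K := QBar) (F := FB (q * M)) := by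
  obtain ⟨c, hc, hc0⟩ := hk.exists_isGlue hm
  have hk' : HasKummer h (galD τ D) m a := hk.galois (resLift_of_inertia hτ)
  obtain ⟨c', hc', -⟩ := hk'.exists_isGlue hm
  obtain rfl := h.isGlue_inertia hτ hc hc'
  exact hk.sub_mem_principal hm hmq hk' (fun χ => (hc0 χ).1) hc hc'

omit [CharP (Res A) q] [FF.IsFunctionField (Res A) (KM A M)] in
/-- **`(σ² - 1)` of a class killed by both degeneracy maps is toric.** -/
theorem toric_class (hA : A.LiesOverPrime q) (hqM : ¬ q ∣ M) {σ : GQ}
    (hσ : A.IsFrobeniusAt σ q) {m : ℕ} (hmq : ¬ q ∣ m)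
    {D : Divisor.degZero (K := QBar) (F := FB (q * M))} {f : FB (q * M)} (hf : f ≠ 0)
    (hord : ∀ v, v.ord f = (m : ℤ) * (D : Divisor QBar (FB (q * M))) v)
    {g g' : FB M} (hg : g ≠ 0) (hg' : g' ≠ 0) (hN : normUp q M f = g ^ m)
    (hN' : normUp q M (wEquiv q M hqM f) = g' ^ m) :
    ∃ h : Setup A M q, ∃ z : JZero (q * M),
      z = σ • σ • (Pic0.mk D : JZero (q * M)) - Pic0.mk D ∧
      (∀ τ ∈ A.inertiaSubgroupIn ℚ, τ • z = z) ∧
      σ • z + q • (Semistable.wAut h • z) = 0 := by
  have := charP_res (q := q) hA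
  have := isFunctionField_KM A (natCast_res_ne_zero hA hqM : (M : Res A) ≠ 0)
  have hm : m ≠ 0 := fun h => hmq (h ▸ dvd_zero q)
  have h := setup_of_not_dvd hA hqM
  obtain ⟨y, a, hy, hk⟩ := NewformLocal.Toric.exists_hasKummer h hσ hf hord hg hg' hN hN'
  let DY : Divisor.degZero (K := QBar) (F := FB (q * M)) :=
    ⟨FF.div QBar y, Divisor.mem_degZero.mpr (FF.degree_div _)⟩
  let D' : Divisor.degZero (K := QBar) (F := FB (q * M)) :=
    SemilinearAut.degZeroSMulHom (arithmeticGalois (L := QBar) (modularFunctionFieldFull (q * M)) σ)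
        (SemilinearAut.degZeroSMulHom
          (arithmeticGalois (L := QBar) (modularFunctionFieldFull (q * M)) σ) D) - D
          + DY
  have hY : (Pic0.mk DY : JZero (q * M)) = 0 :=
    (mk_eq_zero_iff DY).mpr ⟨y, hy, fun v => FF.div_apply y v⟩
  refine ⟨h, Pic0.mk D', ?_, fun τ hτ => ?_, ?_⟩
  · show Pic0.mk _ - Pic0.mk D + Pic0.mk DY = _
    rw [hY, add_zero]
    rfl
  · refine sub_eq_zero.mp ?_
    exact (mk_eq_zero_iff (SemilinearAut.degZeroSMulHom
        (arithmeticGalois (L := QBar) (modularFunctionFieldFull (q * M)) τ) D' - D')).mpr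
      (inertia_fix_principal hτ hm hmq hk)
  · exact (mk_eq_zero_iff (SemilinearAut.degZeroSMulHom
      (arithmeticGalois (L := QBar) (modularFunctionFieldFull (q * M)) σ) D' +
      q • SemilinearAut.degZeroSMulHom (Semistable.wAut h) D')).mpr
      (h.frobenius_add_wAut_principal hσ hm hmq hk)

section Model

variable {p : ℕ} [hp : Fact p.Prime]

omit [CharP (Res A) q] [FF.IsFunctionField (Res A) ↥(KM A M)] in
/-- The class of `w f`. -/
theorem toTorsion_wDiv (hqM : ¬ q ∣ M) (h : Setup A M q) {m : ℕ} [NeZero m]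
    (f : divGrp QBar (FB (q * M)) m) :
    ((toTorsion (Additive.ofMul (NewformLocal.Toric.wDiv hqM f))) : JZero (q * M)) =
      Semistable.wAut h • ((toTorsion (Additive.ofMul f)) : JZero (q * M)) := by
  show Pic0.mk ⟨divQuot (NewformLocal.Toric.wDiv hqM f), _⟩ =
    Pic0.mk (SemilinearAut.degZeroSMulHom (Semistable.wAut h) ⟨divQuot f, _⟩)
  refine congrArg Pic0.mk (Subtype.ext (Finsupp.ext fun v => ?_))
  have hm : (m : ℤ) ≠ 0 := Nat.cast_ne_zero.mpr (NeZero.ne m)
  have h1 := DFunLike.congr_fun (JacTorsion.smul_divQuot (NewformLocal.Toric.wDiv hqM f)) v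
  have h2 := DFunLike.congr_fun (JacTorsion.smul_divQuot f) ((Semistable.wAut h)⁻¹ • v)
  rw [Finsupp.smul_apply, smul_eq_mul, FF.div_apply, NewformLocal.Toric.coe_wDiv] at h1
  rw [Finsupp.smul_apply, smul_eq_mul, FF.div_apply] at h2
  refine mul_left_cancel₀ hm (h1.trans ?_)
  rw [SemilinearAut.coe_degZeroSMulHom, SemilinearAut.divisor_smul_apply, h2]
  exact h.ord_wEquiv v _

omit [CharP (Res A) q] [FF.IsFunctionField (Res A) ↥(KM A M)] in
/-- Frobenius and inertia on torsion in the image of an operator killing level `M`. -/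
theorem toric_image (hqM : ¬ q ∣ M) (hqp : q ≠ p)
    (t : FullHecke (q * M)) (ht : IsKilling q M t)
    (hA : A.LiesOverPrime q) {σ : GQ} (hσ : A.IsFrobeniusAt σ q) (n : ℕ) (x : JTors (q * M) p n)
    (c : Fin (2 * Gamma0.genus (q * M)) → ZMod (p ^ n))
    (hc : (GaloisReps.torsionIso (q * M) p (GaloisReps.conjProperty (q * M))).psi n x =
      ((GaloisReps.latticeMat _ t).map (Int.castRingHom _)).mulVec c) :
    σ • (σ • σ • (x : JZero (q * M)) - x) -
        q • (σ • σ • heckeOperatorBar (q * M) ⟨q, hq.out⟩ x - heckeOperatorBar (q * M) ⟨q,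
          hq.out⟩ x)
        = 0 ∧
      ∀ τ ∈ A.inertiaSubgroupIn ℚ,
        τ • (σ • σ • (x : JZero (q * M)) - x) = σ • σ • (x : JZero (q * M)) - x := by
  set E := GaloisReps.torsionIso (q * M) p (GaloisReps.conjProperty (q * M)) with hE
  have hr := NewformLocal.Toric.raiseData hqM
  obtain ⟨C, S, W, hS⟩ := NewformLocal.Toric.exists_degeneracySystems hr (mul_comm q M)
  obtain ⟨f, rfl⟩ := JacTorsion.toTorsion_surjective x
  have hmon : ∀ f' : divGrp QBar (FB (q * M)) (p ^ n),
      atkinHom _ (ZMod (p ^ n)) (E.e n (toTorsion (Additive.ofMul f'))).1 =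
        NewformLocal.Toric.monodromy f' := fun f' => by
    show atkinHom _ _ (atkinHom _ _ (JacTorsion.torsionEquiv (q * M) (p ^ n)
      (toTorsion (Additive.ofMul f'))).1) = _
    rw [GaloisReps.atkinHom_atkinHom]
    rfl
  -- `x` is killed by both degeneracy maps, so both norms of its function `f` are `p ^ n`-th powers
  obtain ⟨hC0, hS0⟩ := ht.apply_eq_zero hS (E.e n (toTorsion f)).2 c hc
  obtain ⟨h1, h2⟩ := kernel_atkinHom hr (mul_comm q M) hS hC0 hS0
  rw [show toTorsion f = toTorsion (Additive.ofMul f.toMul) from rfl, hmon] at h1 h2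
  obtain ⟨⟨g, hg, hN⟩, g', hg', hN'⟩ :=
    NewformLocal.Toric.exists_norms_eq_pow hqM hS f.toMul h1 h2
  have hmq : ¬ q ∣ p ^ n := fun hd =>
    hqp ((Nat.prime_dvd_prime_iff_eq hq.out hp.out).1 (hq.out.dvd_of_dvd_pow hd))
  -- hence `z = (σ² - 1) x` is toric: fixed by inertia, with `σ z = -q w z`
  obtain ⟨h, z, hz, hfix, hfrob⟩ := toric_class hA hqM hσ (m := p ^ n) hmq
    (D := ⟨divQuot f.toMul, JacTorsion.divQuot_mem_degZero _⟩) (Units.ne_zero _) (fun v => by
      have h3 := DFunLike.congr_fun (JacTorsion.smul_divQuot f.toMul) v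
      rw [Finsupp.smul_apply, smul_eq_mul, FF.div_apply] at h3
      exact h3.symm) hg hg' hN hN'
  have hz' : z = σ • σ • ((toTorsion f) : JZero (q * M)) - (toTorsion f : JZero (q * M)) := hz
  -- `w` is `-U_q` on the class
  let Ux : JTors (q * M) p n := GaloisReps.heckeTors n ⟨q, hq.out⟩ (toTorsion f)
  have hw : Semistable.wAut h • ((toTorsion f) : JZero (q * M)) =
      -heckeOperatorBar (q * M) ⟨q, hq.out⟩ (toTorsion f) := by
    rw [show toTorsion f = toTorsion (Additive.ofMul f.toMul) from rfl, ← toTorsion_wDiv hqM h]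
    refine congrArg Subtype.val
      ((E.e n).injective (a₁ := toTorsion (Additive.ofMul (NewformLocal.Toric.wDiv hqM f.toMul)))
        (a₂ := -Ux) (Subtype.ext ?_))
    refine (Function.LeftInverse.injective (g := atkinHom (q * M) (ZMod (p ^ n)))
      GaloisReps.atkinHom_atkinHom) ?_
    rw [hmon, NewformLocal.Toric.monodromy_wDiv hqM W hS.w_rep, ← hmon,
      ← atkinHom_wSystem hr (mul_comm q M) W hS.w_rep, map_neg, AddSubgroup.coe_neg, map_neg,
      E.hecke n q hq.out (toTorsion f) Ux rfl,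
      show toTorsion (Additive.ofMul f.toMul) = toTorsion f from rfl,
      wSystem_apply_eq hr (mul_comm q M) hS hS0, map_neg]
  have hwz : Semistable.wAut h • z =
      -(σ • σ • heckeOperatorBar (q * M) ⟨q, hq.out⟩ (toTorsion f) -
        heckeOperatorBar (q * M) ⟨q, hq.out⟩ (toTorsion f)) := by
    rw [hz', smul_sub, Semistable.wAut_smul_galois, Semistable.wAut_smul_galois, hw, smul_neg,
      smul_neg]
    abel
  refine ⟨?_, fun τ hτ => by rw [← hz']; exact hfix τ hτ⟩
  rw [hwz, hz', neg_nsmul, ← sub_eq_add_neg] at hfrob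
  exact hfrob

end Model

/-- On the image of an operator killing level `N / q`, `σ` is `q U_q` and inertia is trivial
after `σ ^ 2 - 1`. -/
def SignedToricAt {N p : ℕ} [NeZero N] [Fact p.Prime] (D : HeckeGaloisModel N p) (q : ℕ)
    (hq : q.Prime) : Prop :=
  ∀ (R : ℕ) [NeZero R], R * q = N →
    ∀ t : FullHecke N, IsKilling q R t →
        ∀ A : ValuationSubring QBar, A.LiesOverPrime q →
          ∀ σ : GQ, A.IsFrobeniusAt σ q →
            (D.gal σ - (q : ℤ_[p]) • matIn D.hecke ℤ_[p] (HeckeDuality.heckeOp N 2 q hq)) *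
                (D.gal σ * D.gal σ - 1) * matIn D.hecke ℤ_[p] t = 0 ∧
              ∀ τ ∈ A.inertiaSubgroupIn ℚ,
                (D.gal τ - 1) * (D.gal σ * D.gal σ - 1) *
                  matIn D.hecke ℤ_[p] t = 0

omit [CharP (Res A) q] [FF.IsFunctionField (Res A) (KM A M)] in
theorem signedToricAt_mul {p : ℕ} [hp : Fact p.Prime] (hqM : ¬ q ∣ M) (hqp : q ≠ p)
    (hES : GaloisReps.EichlerShimuraCongruence (q * M) p) :
    SignedToricAt (modelOfCongruence hES) q hq.out := by
  intro R hR0 hRq t ht A hA σ hσ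
  obtain rfl : R = M := mul_right_cancel₀ hq.out.ne_zero (hRq.trans (mul_comm q M))
  set E := GaloisReps.torsionIso (q * R) p (GaloisReps.conjProperty (q * R))
  have hG : ∀ n g, (PadicInt.toZModPow n).mapMatrix (E.gal g) = E.galLvl n g := fun n g =>
    E.map_gal n g
  have hU : ∀ n (x : JTors (q * R) p n),
      ((GaloisReps.latticeMat (q * R) (HeckeDuality.heckeOp (q * R) 2 q hq.out)).map
        (Int.castRingHom (ZMod (p ^ n)))).mulVec (E.psi n x) =
        E.psi n (GaloisReps.heckeTors n ⟨q, hq.out⟩ x) := fun n x => by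
    rw [GaloisReps.latticeMat_heckeOp, E.psi_apply, ← GaloisReps.coord_homOp q hq.out (E.e n x).2,
      E.psi_apply, E.hecke n q hq.out x (GaloisReps.heckeTors n ⟨q, hq.out⟩ x) rfl]
  -- both identities are checked modulo `p ^ n` on the points of the image of `t`
  constructor
  · show (E.gal σ - (q : ℤ_[p]) • matIn (GaloisReps.latticeMat (q * R)) ℤ_[p] _) *
      (E.gal σ * E.gal σ - 1) * matIn (GaloisReps.latticeMat (q * R)) ℤ_[p] t = 0
    refine GaloisReps.ext_of_forall_toZModPow fun n => ?_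
    have hcomm : ∀ z : JZero (q * R), heckeOperatorBar (q * R) ⟨q, hq.out⟩ (σ • z) =
        σ • heckeOperatorBar (q * R) ⟨q, hq.out⟩ z := fun z =>
      ((GaloisReps.torsionGalois (q * R) p hES).comm ⟨q, hq.out⟩ σ z).symm
    show (PadicInt.toZModPow n).mapMatrix _ = (PadicInt.toZModPow n).mapMatrix 0
    rw [Nat.cast_smul_eq_nsmul, map_zero, map_mul, map_mul, map_sub, map_sub,
      map_mul, map_nsmul, map_one, hG, RingHom.mapMatrix_apply, RingHom.mapMatrix_apply,
      GaloisReps.matIn_apply, GaloisReps.map_intCast_toZModPow,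
      GaloisReps.matIn_apply, GaloisReps.map_intCast_toZModPow]
    refine Matrix.toLin'.injective (LinearMap.ext fun v => ?_)
    obtain ⟨x, hx⟩ := (E.psi n).surjective
      (((GaloisReps.latticeMat _ t).map (Int.castRingHom _)).mulVec v)
    have key := (toric_image hqM hqp t ht hA hσ n x v hx).1
    rw [Matrix.toLin'_apply, map_zero, LinearMap.zero_apply, ← Matrix.mulVec_mulVec, ← hx]
    simp only [← Matrix.mulVec_mulVec, Matrix.sub_mulVec, Matrix.smul_mulVec, Matrix.one_mulVec,
      E.galLvl_mulVec, hU, ← map_nsmul, ← map_sub]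
    refine (congrArg (E.psi n) (Subtype.ext ?_)).trans (map_zero _)
    show σ • (σ • σ • (x : JZero (q * R)) - x) -
      heckeOperatorBar (q * R) ⟨q, hq.out⟩ (q • (σ • σ • (x : JZero (q * R)) - x)) = 0
    rw [map_nsmul, map_sub, hcomm, hcomm]
    exact key
  · intro τ hτ
    show (E.gal τ - 1) *
      (E.gal σ * E.gal σ - 1) * matIn (GaloisReps.latticeMat (q * R)) ℤ_[p] t = 0
    refine GaloisReps.ext_of_forall_toZModPow fun n => ?_
    show (PadicInt.toZModPow n).mapMatrix _ = (PadicInt.toZModPow n).mapMatrix 0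
    rw [map_zero, map_mul, map_mul, map_sub, map_sub, map_mul, map_one, hG, hG,
      RingHom.mapMatrix_apply, GaloisReps.matIn_apply, GaloisReps.map_intCast_toZModPow]
    refine Matrix.toLin'.injective (LinearMap.ext fun v => ?_)
    obtain ⟨x, hx⟩ := (E.psi n).surjective
      (((GaloisReps.latticeMat _ t).map (Int.castRingHom _)).mulVec v)
    have key := sub_eq_zero.mpr ((toric_image hqM hqp t ht hA hσ n x v hx).2 τ hτ)
    rw [Matrix.toLin'_apply, map_zero, LinearMap.zero_apply, ← Matrix.mulVec_mulVec, ← hx]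
    simp only [← Matrix.mulVec_mulVec, Matrix.sub_mulVec, Matrix.one_mulVec,
      E.galLvl_mulVec, ← map_sub]
    exact (congrArg (E.psi n) (Subtype.ext key)).trans (map_zero _)

omit [CharP (Res A) q] [FF.IsFunctionField (Res A) (KM A M)] in
/-- **The signed toric input.** -/
theorem signedToricAt {N : ℕ} [NeZero N] {p : ℕ} [Fact p.Prime] {r : ℕ} (hr : r.Prime)
    (hrp : r ≠ p) (hrN : r ∣ N) (hr2 : ¬ r ^ 2 ∣ N) 
    (hES : GaloisReps.EichlerShimuraCongruence N p) :
    SignedToricAt (modelOfCongruence hES) r hr := by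
  obtain ⟨M, rfl⟩ := hrN
  have : Fact r.Prime := ⟨hr⟩
  have : NeZero M := ⟨fun h => NeZero.ne (r * M) (by rw [h, mul_zero])⟩
  exact signedToricAt_mul (fun h => hr2 (by rw [pow_two]; exact mul_dvd_mul_left r h)) hrp hES

end Fermat.Agent.LT.Points
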